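/-
N4-FULL, Block A, node A2 (helper26): GALOIS × HECKE COMMUTATION.

Generic part: a pair of semilinear automorphisms `(g, g')` of `F`, `F'` intertwining a finite
`φ : F →ₐ[K] F'` is compatible with restriction of places, ramification indices, inertia degrees,
pull-back and push-forward of divisors, and correspondences on `Pic⁰`.

Modular part: `arithmeticGalois` (coefficientwise Galois action on `q`-expansions) intertwines the
two degeneracy maps `α`, `β`, hence commutes with the Hecke operators `heckeOperatorBar N ℓ` on
`JZero N`; the `SMulCommClass` instance for `heckeModuleBar N`.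
-/
import Fermat.Prelude.Def_ModularCurve_HeckeModule
import Fermat.Prelude.Thm_ModularCurve_coeffMap_qExpand

set_option autoImplicit false
set_option linter.style.haveILetI false
set_option linter.unusedSectionVars false

open AlgebraicCurve IntermediateField ModularCurve

open scoped Pointwise

namespace Fermat.Agent.N4F.A.GaloisHecke

/-! ### Instance form -/

section Inst

variable {K F F' : Type*} [Field K] [Field F] [Field F'] [Algebra K F] [Algebra K F']
  [Algebra F F'] [IsScalarTower K F F'] [Algebra.IsIntegral F F']
variable {g : SemilinearAut K F} {g' : SemilinearAut K F'}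

theorem mem_smul_place_iff (g : SemilinearAut K F) (v : Place K F) (f : F) :
    f ∈ (g • v).toValuationSubring ↔ g⁻¹ • f ∈ v.toValuationSubring := by
  rw [SemilinearAut.smul_toValuationSubring]
  exact ValuationSubring.mem_pointwise_smul_iff_inv_smul_mem

variable (h : ∀ x : F, g' • algebraMap F F' x = algebraMap F F' (g • x))

include h in
theorem inv_smul_algebraMap (x : F) : g'⁻¹ • algebraMap F F' x = algebraMap F F' (g⁻¹ • x) := by
  have := h (g⁻¹ • x)
  rw [smul_inv_smul] at this
  rw [← this, inv_smul_smul]

include h in
/-- Restriction of places is equivariant. -/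
theorem smul_restrict (w : Place K F') : (g' • w).restrict F = g • (w.restrict F) := by
  apply Place.ext
  ext f
  rw [Place.mem_restrict_iff, mem_smul_place_iff, mem_smul_place_iff, Place.mem_restrict_iff,
    inv_smul_algebraMap h]

include h in
theorem ord_smul_algebraMap (w : Place K F') (f : F) :
    (g' • w).ord (algebraMap F F' f) = w.ord (algebraMap F F' (g⁻¹ • f)) := by
  have h1 := SemilinearAut.ord_smul g' w (algebraMap F F' (g⁻¹ • f))
  rw [h, smul_inv_smul] at h1
  exact h1

include h in
/-- Ramification indices are invariant. -/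
theorem ramificationIndex_smul (w : Place K F') :
    (g' • w).ramificationIndex F = w.ramificationIndex F := by
  show sInf {n : ℕ | 0 < n ∧ ∃ f : F, f ≠ 0 ∧ (g' • w).ord (algebraMap F F' f) = n} =
    sInf {n : ℕ | 0 < n ∧ ∃ f : F, f ≠ 0 ∧ w.ord (algebraMap F F' f) = n}
  congr 1
  ext n
  constructor
  · rintro ⟨hn, f, hf, hfn⟩
    refine ⟨hn, g⁻¹ • f, ?_, ?_⟩
    · simpa using hf
    · rw [← hfn]
      exact (ord_smul_algebraMap h w f).symm
  · rintro ⟨hn, f, hf, hfn⟩
    refine ⟨hn, g • f, ?_, ?_⟩
    · simpa using hf
    · rw [← hfn]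
      have := ord_smul_algebraMap h w (g • f)
      rw [inv_smul_smul] at this
      exact this

include h in
theorem smul_mem_restrict (w : Place K F') {x : F}
    (hx : x ∈ (w.restrict F).toValuationSubring) :
    g • x ∈ ((g' • w).restrict F).toValuationSubring := by
  rw [smul_restrict h, mem_smul_place_iff, inv_smul_smul]
  exact hx

include h in
theorem inv_smul_mem_restrict (w : Place K F') {y : F}
    (hy : y ∈ ((g' • w).restrict F).toValuationSubring) :
    g⁻¹ • y ∈ (w.restrict F).toValuationSubring := by
  rw [smul_restrict h, mem_smul_place_iff] at hy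
  exact hy

/-- The ring isomorphism `O_{w|F} ≃ O_{g'w|F}`, `x ↦ g x`. -/
def restrictEquiv (w : Place K F') :
    (w.restrict F).toValuationSubring ≃+* ((g' • w).restrict F).toValuationSubring where
  toFun x := ⟨g • (x : F), smul_mem_restrict h w x.2⟩
  invFun y := ⟨g⁻¹ • (y : F), inv_smul_mem_restrict h w y.2⟩
  left_inv x := Subtype.ext (inv_smul_smul g (x : F))
  right_inv y := Subtype.ext (smul_inv_smul g (y : F))
  map_mul' x y := Subtype.ext (smul_mul' g (x : F) (y : F))
  map_add' x y := Subtype.ext (smul_add g (x : F) (y : F))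

@[simp]
theorem coe_restrictEquiv (w : Place K F') (x : (w.restrict F).toValuationSubring) :
    ((restrictEquiv h w x : ((g' • w).restrict F).toValuationSubring) : F) = g • (x : F) := rfl

include h in
/-- Inertia degrees are invariant. -/
theorem inertiaDeg_smul (w : Place K F') : (g' • w).inertiaDeg F = w.inertiaDeg F := by
  show Module.finrank ((g' • w).restrict F).ResidueField (g' • w).ResidueField =
    Module.finrank (w.restrict F).ResidueField w.ResidueField
  symm
  refine Algebra.finrank_eq_of_equiv_equiv
    (IsLocalRing.ResidueField.mapEquiv (restrictEquiv h w))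
    (SemilinearAut.smulResidueRingEquiv g' w) ?_
  refine RingHom.ext fun x => ?_
  obtain ⟨a, rfl⟩ := IsLocalRing.residue_surjective x
  show Place.restrictResidueMap F (g' • w)
      (IsLocalRing.ResidueField.mapEquiv (restrictEquiv h w) (IsLocalRing.residue _ a)) =
    SemilinearAut.smulResidueRingEquiv g' w
      (Place.restrictResidueMap F w (IsLocalRing.residue _ a))
  rw [IsLocalRing.ResidueField.mapEquiv_apply, IsLocalRing.ResidueField.map_residue,
    Place.restrictResidueMap_residue, Place.restrictResidueMap_residue]
  show _ = IsLocalRing.ResidueField.mapEquiv _ (IsLocalRing.residue _ _)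
  rw [IsLocalRing.ResidueField.mapEquiv_apply, IsLocalRing.ResidueField.map_residue]
  refine congrArg _ (Subtype.ext ?_)
  exact (h (a : F)).symm

include h in
/-- Push-forward of divisors is equivariant. -/
theorem smul_pushforward (D : Divisor K F') :
    g • Divisor.pushforward F D = Divisor.pushforward F (g' • D) := by
  induction D using Finsupp.induction with
  | zero => rw [map_zero, smul_zero, smul_zero, map_zero]
  | single_add w n D _ _ ih =>
    rw [map_add, smul_add, smul_add, map_add, ih, Divisor.pushforward_single,
      SemilinearAut.smul_single, SemilinearAut.smul_single, Divisor.pushforward_single,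
      smul_restrict h, inertiaDeg_smul h]

include h in
/-- Pull-back of divisors is equivariant. -/
theorem smul_pullback [HasPrincipalDivisors K F'] (D : Divisor K F) :
    g' • Divisor.pullback F' D = Divisor.pullback F' (g • D) := by
  have hinv : ∀ x : F, g'⁻¹ • algebraMap F F' x = algebraMap F F' (g⁻¹ • x) :=
    inv_smul_algebraMap h
  refine Finsupp.ext fun w => ?_
  rw [SemilinearAut.divisor_smul_apply, Divisor.pullback_apply, Divisor.pullback_apply,
    ramificationIndex_smul hinv, smul_restrict hinv, SemilinearAut.divisor_smul_apply]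

end Inst

/-! ### Along a homomorphism -/

section Along

variable {K F F' : Type*} [Field K] [Field F] [Field F'] [Algebra K F] [Algebra K F']
variable (φ ψ : F →ₐ[K] F') (hφ : φ.toRingHom.IsIntegral) (hψ : ψ.toRingHom.IsIntegral)
variable {g : SemilinearAut K F} {g' : SemilinearAut K F'}
variable (h : SemilinearAut.IntertwinesAlong φ.toRingHom g g')
  (h' : SemilinearAut.IntertwinesAlong ψ.toRingHom g g')

include h in
theorem smul_restrictAlong (w : Place K F') :
    (g' • w).restrictAlong φ hφ = g • (w.restrictAlong φ hφ) := by
  letI := algebraAlong φ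
  haveI := isScalarTower_along φ
  haveI := isIntegral_along φ hφ
  exact smul_restrict (F := F) (fun x => h x) w

include h hφ in
theorem ramificationIndexAlong_smul (w : Place K F') :
    Place.ramificationIndexAlong φ (g' • w) = Place.ramificationIndexAlong φ w := by
  letI := algebraAlong φ
  haveI := isScalarTower_along φ
  haveI := isIntegral_along φ hφ
  exact ramificationIndex_smul (F := F) (fun x => h x) w

include h in
theorem inertiaDegAlong_smul (w : Place K F') :
    Place.inertiaDegAlong φ hφ (g' • w) = Place.inertiaDegAlong φ hφ w := by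
  letI := algebraAlong φ
  haveI := isScalarTower_along φ
  haveI := isIntegral_along φ hφ
  exact inertiaDeg_smul (F := F) (fun x => h x) w

include h in
theorem smul_pushforwardAlong (D : Divisor K F') :
    g • Divisor.pushforwardAlong φ hφ D = Divisor.pushforwardAlong φ hφ (g' • D) := by
  letI := algebraAlong φ
  haveI := isScalarTower_along φ
  haveI := isIntegral_along φ hφ
  exact smul_pushforward (F := F) (fun x => h x) D

include h in
theorem smul_pullbackAlong [HasPrincipalDivisors K F'] (D : Divisor K F) :
    g' • Divisor.pullbackAlong φ hφ D = Divisor.pullbackAlong φ hφ (g • D) := by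
  letI := algebraAlong φ
  haveI := isScalarTower_along φ
  haveI := isIntegral_along φ hφ
  exact smul_pullback (F := F) (fun x => h x) D

include h h' in
/-- Correspondences on divisors are equivariant. -/
theorem smul_correspondence [HasPrincipalDivisors K F'] (D : Divisor K F) :
    g • Divisor.correspondence φ ψ hφ hψ D = Divisor.correspondence φ ψ hφ hψ (g • D) := by
  rw [Divisor.correspondence_apply, Divisor.correspondence_apply,
    smul_pushforwardAlong ψ hψ h', smul_pullbackAlong φ hφ h]

include h h' in
/-- **Correspondences on `Pic⁰` are equivariant.** -/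
theorem smul_pic0_correspondence [HasPrincipalDivisors K F']
    (hFI : FundamentalIdentityAlong K φ hφ) (hfin : FiniteAlong K ψ)
    (hN : NormFormulaAlong K ψ hfin) (x : Pic0 K F) :
    g • Pic0.correspondence φ ψ hφ hψ hFI hfin hN x =
      Pic0.correspondence φ ψ hφ hψ hFI hfin hN (g • x) := by
  obtain ⟨D, rfl⟩ := Pic0.mk_surjective x
  rw [Pic0.correspondence_mk, SemilinearAut.pic0_smul_mk, SemilinearAut.pic0_smul_mk,
    Pic0.correspondence_mk]
  refine congrArg Pic0.mk (Subtype.ext ?_)
  rw [SemilinearAut.coe_degZeroSMulHom, Pic0.coe_degZeroCorrespondence,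
    Pic0.coe_degZeroCorrespondence, SemilinearAut.coe_degZeroSMulHom]
  exact smul_correspondence φ ψ hφ hψ h h' (D : Divisor K F)

end Along

/-! ### The modular instance -/

section Modular

variable {L : Type*} [Field L] [Algebra ℚ L] (N ℓ : ℕ) [NeZero N] [NeZero ℓ]

/-- The coefficientwise Galois action commutes with `α` (the inclusion). -/
theorem intertwines_heckeAlphaBar (σ : L ≃ₐ[ℚ] L) :
    SemilinearAut.IntertwinesAlong (heckeAlphaBar L N ℓ).toRingHom
      (arithmeticGalois (modularFunctionFieldFull N) σ)
      (arithmeticGalois (modularFunctionFieldFull (N * ℓ)) σ) := by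
  intro x
  apply Subtype.ext
  show coeffMap (σ : L →+* L) ((heckeAlphaBar L N ℓ x : _) : LaurentSeries L) =
    ((heckeAlphaBar L N ℓ (arithmeticGalois (modularFunctionFieldFull N) σ • x) : _) :
      LaurentSeries L)
  rw [coe_heckeAlphaBar, coe_heckeAlphaBar]
  rfl

/-- The coefficientwise Galois action commutes with `β` (`q ↦ q^ℓ`). -/
theorem intertwines_heckeBetaBar (σ : L ≃ₐ[ℚ] L) :
    SemilinearAut.IntertwinesAlong (heckeBetaBar L N ℓ).toRingHom
      (arithmeticGalois (modularFunctionFieldFull N) σ)
      (arithmeticGalois (modularFunctionFieldFull (N * ℓ)) σ) := by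
  intro x
  apply Subtype.ext
  show coeffMap (σ : L →+* L) (qExpand L ℓ (x : LaurentSeries L)) =
    qExpand L ℓ (coeffMap (σ : L →+* L) (x : LaurentSeries L))
  exact coeffMap_qExpand _ ℓ _

/-- **Galois × Hecke, general coefficient field**: the arithmetic Galois action commutes with
`heckePic0Bar`. -/
theorem galois_smul_heckePic0Bar (hα : HeckeAlphaBarIntegral L N ℓ)
    (hβ : HeckeBetaBarIntegral L N ℓ)
    [HasPrincipalDivisors L (laurentBaseChange L (modularFunctionFieldFull (N * ℓ)))]
    (hFI : FundamentalIdentityAlong L (heckeBetaBar L N ℓ) hβ)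
    (hfin : FiniteAlong L (heckeAlphaBar L N ℓ))
    (hN : NormFormulaAlong L (heckeAlphaBar L N ℓ) hfin) (σ : L ≃ₐ[ℚ] L)
    (x : Pic0 L (laurentBaseChange L (modularFunctionFieldFull N))) :
    heckePic0Bar hα hβ hFI hfin hN (σ • x) = σ • heckePic0Bar hα hβ hFI hfin hN x := by
  rw [galois_smul_pic0_def, galois_smul_pic0_def]
  exact (smul_pic0_correspondence (heckeBetaBar L N ℓ) (heckeAlphaBar L N ℓ) hβ hα
    (intertwines_heckeBetaBar N ℓ σ) (intertwines_heckeAlphaBar N ℓ σ) hFI hfin hN x).symm

/-- The total Hecke operator commutes with the Galois action (both branches). -/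
theorem galois_smul_heckeOperatorAlong (σ : L ≃ₐ[ℚ] L)
    (x : Pic0 L (laurentBaseChange L (modularFunctionFieldFull N))) :
    heckeOperatorAlong L N ℓ (σ • x) = σ • heckeOperatorAlong L N ℓ x := by
  by_cases h : HeckeInputsAlong L N ℓ
  · obtain ⟨hα, hβ, hP, hfin, hFI, hN⟩ := h
    haveI := hP
    rw [heckeOperatorAlong_eq hα hβ hFI hfin hN]
    exact galois_smul_heckePic0Bar N ℓ hα hβ hFI hfin hN σ x
  · rw [heckeOperatorAlong_of_not h]
    simp only [AddMonoidHom.zero_apply]
    exact (smul_zero σ).symm

end Modular

/-! ### `JZero N` -/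

section Jacobian

local notation "Qbar" => AlgebraicClosure ℚ
local notation "Γ" => (AlgebraicClosure ℚ ≃ₐ[ℚ] AlgebraicClosure ℚ)

variable (N : ℕ) [NeZero N]

/-- **Galois × Hecke commutation** on `J₀(N)(ℚ̄)`. -/
theorem galois_hecke_comm (l : Nat.Primes) (σ : Γ) (x : JZero N) :
    heckeOperatorBar N l (σ • x) = σ • heckeOperatorBar N l x := by
  haveI : NeZero (l : ℕ) := ⟨l.2.ne_zero⟩
  rw [heckeOperatorBar_apply, heckeOperatorBar_apply]
  exact galois_smul_heckeOperatorAlong N l σ x

theorem galois_smul_zsmul (σ : Γ) (n : ℤ) (x : JZero N) : σ • (n • x) = n • (σ • x) :=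
  map_zsmul (DistribSMul.toAddMonoidHom (JZero N) σ) n x

/-- Every element of the Hecke algebra generated by the `T_ℓ` commutes with the Galois action. -/
theorem galois_smul_of_mem_adjoin (σ : Γ) {T : Module.End ℤ (JZero N)}
    (hT : T ∈ Algebra.adjoin ℤ (Set.range (heckeOperatorBar N))) (x : JZero N) :
    T (σ • x) = σ • T x := by
  induction hT using Algebra.adjoin_induction generalizing x with
  | mem T hT =>
    obtain ⟨l, rfl⟩ := hT
    exact galois_hecke_comm N l σ x
  | algebraMap n =>
    rw [Module.algebraMap_end_apply, Module.algebraMap_end_apply, galois_smul_zsmul]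
  | add S T _ _ hS hT => rw [LinearMap.add_apply, LinearMap.add_apply, hS, hT, smul_add]
  | mul S T _ _ hS hT => rw [Module.End.mul_apply, Module.End.mul_apply, hT, hS]

/-- **The `SMulCommClass` hypothesis of S37 etc. is a theorem** (both branches of
`heckeModuleBar`). -/
theorem smulCommClass_galois_heckeAlg :
    letI := heckeModuleBar N
    SMulCommClass Γ HeckeAlg (JZero N) := by
  letI := heckeModuleBar N
  refine ⟨fun σ t x => ?_⟩
  by_cases h : HeckeOperatorsCommuteBar N
  · have h1 := heckeModuleBar_smul_def h t x
    have h2 := heckeModuleBar_smul_def h t (σ • x)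
    rw [h1, h2, heckeEvalBar_apply]
    exact (galois_smul_of_mem_adjoin N σ (heckeEvalBarAux h t).2 x).symm
  · have h1 := heckeModuleBar_smul_of_not h t x
    have h2 := heckeModuleBar_smul_of_not h t (σ • x)
    rw [h1, h2]
    exact galois_smul_zsmul N σ _ x

end Jacobian

end Fermat.Agent.N4F.A.GaloisHecke
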