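/-
N4-FULL, block A, node A1a (helper29): the fundamental identity `Σ_{w | v} e(w|v) · deg w = [F' : F] · deg v`
for a finite extension `F ⊂ F'` of function fields of one variable over a field `K` of characteristic
zero, in the prelude's `Place` language (`AlgebraicCurve.FundamentalIdentity K F F'`), together with
its `Along`-form for a `K`-algebra homomorphism `φ : F →ₐ[K] F'`.

Route: S24/PrincipalDegree `exists_divisor_of_isIntegralClosure` applied to the DVR `A = O_v`,
`B` = integral closure of `A` in `F'`, `a` = a uniformiser of `v`.
-/
import Mathlib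
import Fermat.Prelude.Def_AlgebraicCurve_Correspondence
import Fermat.Agent.S24.PrincipalDegree

set_option autoImplicit false
set_option linter.style.haveILetI false
set_option linter.unusedSectionVars false

namespace Fermat.Agent.N4F.A.FundIdentity

open AlgebraicCurve IsDedekindDomain

section restrict

variable {K F F' : Type*} [Field K] [Field F] [Field F'] [Algebra K F] [Algebra K F']
  [Algebra F F'] [IsScalarTower K F F'] [Algebra.IsIntegral F F']

/-- Two places of `F`, one contained in the other, are equal. -/
theorem eq_of_le {v v' : Place K F} (h : v.toValuationSubring ≤ v'.toValuationSubring) :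
    v = v' := by
  apply Place.ext
  refine le_antisymm h ?_
  intro x hx
  by_contra hxv
  apply v'.ne_top'
  have hx0 : x ≠ 0 := by
    rintro rfl
    exact hxv (zero_mem _)
  have hordx : v.ord x < 0 := Fermat.Agent.S24.ord_neg_of_not_mem v hxv
  refine SetLike.ext fun y => ⟨fun _ => ValuationSubring.mem_top y, fun _ => ?_⟩
  rcases eq_or_ne y 0 with rfl | hy0
  · exact zero_mem _
  -- `y = (y * x^(-n)) * x^n` with `n` large
  set n : ℕ := (-(v.ord y)).toNat with hn
  have hxn : x ^ n ≠ 0 := pow_ne_zero _ hx0
  have h1 : y * (x ^ n)⁻¹ ∈ v.toValuationSubring := by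
    rw [Fermat.Agent.S24.mem_iff_ord_nonneg v (mul_ne_zero hy0 (inv_ne_zero hxn)),
      v.ord_mul hy0 (inv_ne_zero hxn), v.ord_inv, ← zpow_natCast, v.ord_zpow]
    have : (n : ℤ) * v.ord x ≤ (n : ℤ) * (-1) :=
      mul_le_mul_of_nonneg_left (by omega) (Int.natCast_nonneg n)
    omega
  have h2 : y = y * (x ^ n)⁻¹ * x ^ n := by
    rw [mul_assoc, inv_mul_cancel₀ hxn, mul_one]
  rw [h2]
  exact mul_mem (h h1) (pow_mem hx n)

/-- A place `w` of `F'` lies over `v` iff its valuation ring contains (the image of) `O_v`. -/
theorem restrict_eq_iff_le (w : Place K F') (v : Place K F) :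
    w.restrict F = v ↔
      ∀ a : v.toValuationSubring, algebraMap F F' (a : F) ∈ w.toValuationSubring := by
  constructor
  · rintro rfl a
    exact (Place.mem_restrict_iff w).mp a.2
  · intro h
    exact (eq_of_le (v := v) (v' := w.restrict F) fun a ha =>
      (Place.mem_restrict_iff w).mpr (h ⟨a, ha⟩)).symm

end restrict

section main

variable {K F F' : Type*} [Field K] [Field F] [Field F'] [Algebra K F] [Algebra K F']
  [Algebra F F'] [IsScalarTower K F F']

/-- The `O_v`-algebra structure on `F'`. -/
@[reducible] noncomputable def algebraValF' (v : Place K F) : Algebra v.toValuationSubring F' :=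
  ((algebraMap F F').comp (algebraMap v.toValuationSubring F)).toAlgebra

theorem isScalarTower_valF' (v : Place K F) :
    letI := algebraValF' (F' := F') v
    IsScalarTower v.toValuationSubring F F' :=
  letI := algebraValF' (F' := F') v
  IsScalarTower.of_algebraMap_eq fun _ => rfl

/-- The uniformiser has `dim_K O_v/(π) = deg v`. -/
theorem finrank_quotient_span_irreducible (v : Place K F) {π : v.toValuationSubring}
    (hπ : Irreducible π) :
    Module.finrank K (v.toValuationSubring ⧸ Ideal.span {π}) = v.deg := by
  have h : Ideal.span {π} = IsLocalRing.maximalIdeal v.toValuationSubring :=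
    (hπ.maximalIdeal_eq).symm
  rw [Place.deg]
  exact (Ideal.quotientEquivAlgOfEq K h).toLinearEquiv.finrank_eq

/-- Nonzero ideals of `O_v` have finite `K`-codimension (given a finite residue field). -/
theorem finite_quotient_of_ne_bot (v : Place K F) (hres : Module.Finite K v.ResidueField)
    (p : Ideal v.toValuationSubring) (hp : p ≠ ⊥) :
    Module.Finite K (v.toValuationSubring ⧸ p) := by
  have hfin : ∀ Q : Ideal v.toValuationSubring, Q.IsMaximal → Q ≠ ⊥ →
      Module.Finite K (v.toValuationSubring ⧸ Q) := by
    intro Q hQ _
    have hQm : Q = IsLocalRing.maximalIdeal _ := IsLocalRing.eq_maximalIdeal hQ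
    subst hQm
    exact hres
  exact (Fermat.Agent.M2.IdealDegree.finrank_quotient_eq_sum_normalizedFactors K hfin hp).1

variable [CharZero K] [FiniteDimensional F F'] [Algebra.IsIntegral F F']
  [HasPrincipalDivisors K F']

/-- **The fundamental identity** `Σ_{w | v} e(w|v) deg w = [F' : F] deg v`. -/
theorem sum_ramificationIndex_mul_deg (hres : ∀ v : Place K F, Module.Finite K v.ResidueField)
    (v : Place K F) :
    ∑ w ∈ v.fiber F', (w.ramificationIndex F : ℤ) * (w.deg : ℤ)
      = (Module.finrank F F' : ℤ) * (v.deg : ℤ) := by
  classical
  letI := algebraValF' (F' := F') v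
  haveI : IsScalarTower v.toValuationSubring F F' := isScalarTower_valF' (F' := F') v
  haveI : CharZero F := charZero_of_injective_algebraMap (algebraMap K F).injective
  haveI : Algebra.IsSeparable F F' := Algebra.IsAlgebraic.isSeparable_of_perfectField
  letI : Algebra K (integralClosure v.toValuationSubring F') :=
    ((algebraMap v.toValuationSubring (integralClosure v.toValuationSubring F')).comp
      (algebraMap K v.toValuationSubring)).toAlgebra
  haveI : IsScalarTower K v.toValuationSubring (integralClosure v.toValuationSubring F') :=
    IsScalarTower.of_algebraMap_eq fun _ => rfl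
  haveI : IsScalarTower v.toValuationSubring (integralClosure v.toValuationSubring F') F' :=
    Subalgebra.isScalarTower_mid _
  haveI : IsScalarTower K (integralClosure v.toValuationSubring F') F' :=
    IsScalarTower.of_algebraMap_eq fun k => by
      have h1 : algebraMap (integralClosure v.toValuationSubring F') F'
          (algebraMap K (integralClosure v.toValuationSubring F') k)
          = algebraMap F F' ((algebraMap K v.toValuationSubring k : v.toValuationSubring) : F) :=
        rfl
      rw [h1, Place.coe_algebraMap, ← IsScalarTower.algebraMap_apply]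
  obtain ⟨π, hπ⟩ := IsDiscreteValuationRing.exists_irreducible v.toValuationSubring
  obtain ⟨Z, h1, h2, h3⟩ := Fermat.Agent.S24.exists_divisor_of_isIntegralClosure (K := K) (F := F')
    (A := v.toValuationSubring) (B := integralClosure v.toValuationSubring F') (L := F)
    (fun p hp => finite_quotient_of_ne_bot v (hres v) p hp) hπ.ne_zero
  -- places containing `B` are the places over `v`
  have hiff : ∀ w : Place K F', (∀ b : integralClosure v.toValuationSubring F',
      algebraMap (integralClosure v.toValuationSubring F') F' b ∈ w.toValuationSubring) ↔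
      w.restrict F = v := by
    intro w
    rw [restrict_eq_iff_le]
    constructor
    · intro h a
      exact h (algebraMap v.toValuationSubring (integralClosure v.toValuationSubring F') a)
    · intro h b
      exact Fermat.Agent.S24.mem_of_isIntegral_of_forall_mem (A := v.toValuationSubring) w
        (fun a => h a) b.2
  have hZ : ∀ w : Place K F', Z w = if w ∈ v.fiber F' then (w.ramificationIndex F : ℤ) else 0 := by
    intro w
    by_cases hw : w.restrict F = v
    · rw [if_pos (Place.mem_fiber.mpr hw), h1 w ((hiff w).mpr hw)]
      show w.ord (algebraMap F F' (π : F)) = _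
      rw [w.ord_restrict (π : F), hw, v.ord_coe_irreducible hπ, mul_one]
    · rw [if_neg (fun h => hw (Place.mem_fiber.mp h)), h2 w (fun h => hw ((hiff w).mp h))]
  have hZ' : Z = ∑ w ∈ v.fiber F', Finsupp.single w (w.ramificationIndex F : ℤ) := by
    ext w
    rw [hZ w, Finsupp.finsetSum_apply]
    by_cases hw : w ∈ v.fiber F'
    · rw [if_pos hw, Finset.sum_eq_single_of_mem w hw (fun b _ hb => Finsupp.single_eq_of_ne' hb),
        Finsupp.single_eq_same]
    · rw [if_neg hw]
      exact (Finset.sum_eq_zero fun b hb =>
        Finsupp.single_eq_of_ne' (by rintro rfl; exact hw hb)).symm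
  rw [hZ', map_sum, finrank_quotient_span_irreducible v hπ] at h3
  rw [← h3]
  exact Finset.sum_congr rfl fun w _ => (Divisor.degree_single w _).symm

/-- **A1a**: the prelude's `FundamentalIdentity` for a finite extension of function fields in
characteristic zero with finite residue fields. -/
theorem fundamentalIdentity (hres : ∀ v : Place K F, Module.Finite K v.ResidueField) :
    FundamentalIdentity K F F' :=
  ⟨sum_ramificationIndex_mul_deg hres⟩

end main

section along

variable {K F F' : Type*} [Field K] [Field F] [Field F'] [Algebra K F] [Algebra K F']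
  [CharZero K] [HasPrincipalDivisors K F']

/-- A finite homomorphism is integral. -/
theorem isIntegral_of_finiteAlong (φ : F →ₐ[K] F') (hfin : FiniteAlong K φ) :
    φ.toRingHom.IsIntegral := by
  letI := algebraAlong φ
  haveI : Module.Finite F F' := hfin
  exact (Algebra.IsIntegral.of_finite F F').isIntegral

/-- **A1a**, `Along`-form. -/
theorem fundamentalIdentityAlong (φ : F →ₐ[K] F') (hφ : φ.toRingHom.IsIntegral)
    (hfin : FiniteAlong K φ) (hres : ∀ v : Place K F, Module.Finite K v.ResidueField) :
    FundamentalIdentityAlong K φ hφ := by
  letI := algebraAlong φ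
  haveI := isScalarTower_along φ
  haveI := isIntegral_along φ hφ
  haveI : Module.Finite F F' := hfin
  exact fundamentalIdentity hres

end along

end Fermat.Agent.N4F.A.FundIdentity
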