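/-
N4-FULL, Block A, node A1c (helper26): the LEVEL MAPS between the modular function fields over
`ℚ̄` and their finiteness — the modular inputs of `ModularCurve.HeckeInputsAlong`.

* generic: `finiteAlong_of_finiteDimensional`, `isIntegral_of_finiteAlong`,
  `separableAlong_of_charZero`;
* `levelMap N M m h : F_N →ₐ[ℚ̄] F_M`, `x ↦ x(q^m)`, for `N * m ∣ M`; `coe_levelMap`;
  `heckeAlphaBar_eq`, `heckeBetaBar_eq`;
* `levelMap_finite`, `levelMap_integral`; corollaries `finiteAlong_heckeAlphaBar`,
  `finiteAlong_heckeBetaBar`, `heckeAlphaBarIntegral`, `heckeBetaBarIntegral`;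
* `hasPrincipalDivisors_bar M`, `finite_residueField_bar M v`.
-/
import Fermat.Prelude.Def_ModularCurve_HeckeOperatorTotal
import Fermat.Agent.S24.FFBasicsC
import Fermat.Agent.S24.PrincipalDegree

set_option autoImplicit false
set_option linter.style.haveILetI false

open AlgebraicCurve IntermediateField ModularCurve

namespace Fermat.Agent.N4F.A.LevelMaps

section Generic

variable {K F F' : Type*} [Field K] [Field F] [Field F'] [Algebra K F] [Algebra K F']

/-- If `F'` is finite over `K(φ x)` for some `x : F`, then `F'` is finite over `F` along `φ`. -/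
theorem finiteAlong_of_finiteDimensional (φ : F →ₐ[K] F') (x : F)
    [h : FiniteDimensional K⟮φ x⟯ F'] : FiniteAlong K φ := by
  letI := algebraAlong φ
  show Module.Finite F F'
  obtain ⟨s, hs⟩ := h.fg_top
  refine ⟨⟨s, ?_⟩⟩
  rw [eq_top_iff]
  rintro y -
  have hy : y ∈ Submodule.span K⟮φ x⟯ (s : Set F') := by rw [hs]; trivial
  induction hy using Submodule.span_induction with
  | mem z hz => exact Submodule.subset_span hz
  | zero => exact zero_mem _
  | add a b _ _ ha hb => exact add_mem ha hb
  | smul c z _ hz =>
    have hc : (c : F') ∈ (K⟮x⟯).map φ := by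
      rw [IntermediateField.adjoin_map, Set.image_singleton]
      exact c.2
    obtain ⟨d, _, hd⟩ := hc
    have e : c • z = d • z := by
      show (c : F') * z = algebraMap F F' d * z
      rw [← hd]
      rfl
    rw [e]
    exact Submodule.smul_mem _ _ hz

/-- A finite field homomorphism is integral. -/
theorem isIntegral_of_finiteAlong {φ : F →ₐ[K] F'} (h : FiniteAlong K φ) :
    φ.toRingHom.IsIntegral := by
  letI := algebraAlong φ
  haveI : Module.Finite F F' := h
  exact fun y => (Algebra.IsIntegral.of_finite F F').isIntegral y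

/-- In characteristic zero every finite field homomorphism is separable. -/
theorem separableAlong_of_charZero [CharZero F] {φ : F →ₐ[K] F'} (h : FiniteAlong K φ) :
    SeparableAlong K φ := by
  letI := algebraAlong φ
  haveI : Module.Finite F F' := h
  show Algebra.IsSeparable F F'
  infer_instance

end Generic

section Modular

local notation "Qbar" => AlgebraicClosure ℚ

/-- Monotonicity of the base change of subfields of `ℚ((q))`. -/
theorem laurentBaseChange_mono (L : Type*) [Field L] [Algebra ℚ L]
    {F₀ F₁ : IntermediateField ℚ (LaurentSeries ℚ)} (h : F₀ ≤ F₁) :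
    laurentBaseChange L F₀ ≤ laurentBaseChange L F₁ := by
  rw [laurentBaseChange, IntermediateField.adjoin_le_iff]
  rintro _ ⟨y, hy, rfl⟩
  exact coeffEmb_mem_laurentBaseChange L (h hy)

theorem coeffEmb_jq_mem (M : ℕ) [NeZero M] : coeffEmb Qbar jq ∈ modularFunctionFieldBar M :=
  coeffEmb_mem_laurentBaseChange Qbar (by
    have h := jqd_mem_full M (one_dvd M)
    rwa [qExpand_one_apply] at h)

/-- `x = j(q)` as an element of the function field of level `M`. -/
noncomputable def xj (M : ℕ) [NeZero M] : modularFunctionFieldBar M :=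
  ⟨coeffEmb Qbar jq, coeffEmb_jq_mem M⟩

theorem coe_xj (M : ℕ) [NeZero M] : ((xj M : modularFunctionFieldBar M) : LaurentSeries Qbar) =
    coeffEmb Qbar jq := rfl

theorem transcendental_xj (M : ℕ) [NeZero M] : Transcendental Qbar (xj M) :=
  Fermat.Agent.S24.FFBasics.transcendental_xj M (coeffEmb_jq_mem M)

instance finiteDimensional_xj (M : ℕ) [NeZero M] :
    FiniteDimensional Qbar⟮xj M⟯ (modularFunctionFieldBar M) :=
  Fermat.Agent.S24.FFBasics.finiteDimensional_xj' M (coeffEmb_jq_mem M)

/-- **Principal divisors have degree zero** on the modular function field of every level. -/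
theorem hasPrincipalDivisors_bar (M : ℕ) [NeZero M] :
    HasPrincipalDivisors Qbar (modularFunctionFieldBar M) :=
  Fermat.Agent.S24.hasPrincipalDivisors (xj M)

/-- All residue fields of the modular function fields are finite over `ℚ̄`. -/
theorem finite_residueField_bar (M : ℕ) [NeZero M] (v : Place Qbar (modularFunctionFieldBar M)) :
    Module.Finite Qbar v.ResidueField :=
  Fermat.Agent.S24.finite_residueField' (xj M) (transcendental_xj M) v

/-- Every function of `F_M` is finite over `ℚ̄(f)`, `f` transcendental. -/
theorem finiteDimensional_adjoin_simple (M : ℕ) [NeZero M] {f : modularFunctionFieldBar M}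
    (hf : Transcendental Qbar f) : FiniteDimensional Qbar⟮f⟯ (modularFunctionFieldBar M) :=
  Fermat.Agent.S24.finiteDimensional_adjoin_simple_of_transcendental (xj M) hf

/-! ### The level maps -/

variable (N M m : ℕ) [NeZero N] [NeZero M] [NeZero m]

/-- **The level map** `F_N → F_M`, `x(q) ↦ x(q^m)`, for `N * m ∣ M`. -/
noncomputable def levelMap (h : N * m ∣ M) :
    modularFunctionFieldBar N →ₐ[Qbar] modularFunctionFieldBar M :=
  (IntermediateField.inclusion (laurentBaseChange_mono Qbar (full_degeneracy_le h))).comp
    (heckeBetaBar Qbar N m)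

@[simp]
theorem coe_levelMap (h : N * m ∣ M) (x : modularFunctionFieldBar N) :
    ((levelMap N M m h x : modularFunctionFieldBar M) : LaurentSeries Qbar) =
      qExpand Qbar m (x : LaurentSeries Qbar) := rfl

theorem levelMap_injective (h : N * m ∣ M) : Function.Injective (levelMap N M m h) :=
  (levelMap N M m h).injective

theorem transcendental_levelMap_xj (h : N * m ∣ M) :
    Transcendental Qbar (levelMap N M m h (xj N)) := by
  intro h'
  exact transcendental_xj N ((isAlgebraic_algHom_iff (levelMap N M m h)
    (levelMap N M m h).injective).1 h')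

/-- **The level maps are finite.** -/
theorem levelMap_finite (h : N * m ∣ M) : FiniteAlong Qbar (levelMap N M m h) := by
  haveI : FiniteDimensional Qbar⟮levelMap N M m h (xj N)⟯ (modularFunctionFieldBar M) :=
    finiteDimensional_adjoin_simple M (transcendental_levelMap_xj N M m h)
  exact finiteAlong_of_finiteDimensional (levelMap N M m h) (xj N)

/-- **The level maps are integral.** -/
theorem levelMap_integral (h : N * m ∣ M) : (levelMap N M m h).toRingHom.IsIntegral :=
  isIntegral_of_finiteAlong (levelMap_finite N M m h)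

theorem levelMap_separable (h : N * m ∣ M) : SeparableAlong Qbar (levelMap N M m h) :=
  separableAlong_of_charZero (levelMap_finite N M m h)

/-! ### The two degeneracy maps of the prelude -/

variable (ℓ : ℕ) [NeZero ℓ]

theorem heckeAlphaBar_eq :
    heckeAlphaBar Qbar N ℓ = levelMap N (N * ℓ) 1 (by rw [mul_one]; exact dvd_mul_right N ℓ) := by
  refine AlgHom.ext fun x => Subtype.ext ?_
  rw [coe_heckeAlphaBar, coe_levelMap, qExpand_one_apply]

theorem heckeBetaBar_eq :
    heckeBetaBar Qbar N ℓ = levelMap N (N * ℓ) ℓ (dvd_refl _) := by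
  refine AlgHom.ext fun x => Subtype.ext ?_
  rw [coe_heckeBetaBar, coe_levelMap]

/-- `α : F_N → F_{Nℓ}` is finite. -/
theorem finiteAlong_heckeAlphaBar : FiniteAlong Qbar (heckeAlphaBar Qbar N ℓ) := by
  rw [heckeAlphaBar_eq]
  exact levelMap_finite _ _ _ _

/-- `β : F_N → F_{Nℓ}`, `q ↦ q^ℓ`, is finite. -/
theorem finiteAlong_heckeBetaBar : FiniteAlong Qbar (heckeBetaBar Qbar N ℓ) := by
  rw [heckeBetaBar_eq]
  exact levelMap_finite _ _ _ _

theorem heckeAlphaBarIntegral : HeckeAlphaBarIntegral Qbar N ℓ :=
  isIntegral_of_finiteAlong (finiteAlong_heckeAlphaBar N ℓ)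

theorem heckeBetaBarIntegral : HeckeBetaBarIntegral Qbar N ℓ :=
  isIntegral_of_finiteAlong (finiteAlong_heckeBetaBar N ℓ)

end Modular

end Fermat.Agent.N4F.A.LevelMaps
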