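/-
N4-FULL, Block A, node A1d (helper26): ASSEMBLY of `ModularCurve.HeckeInputsAlong ℚ̄ N ℓ` from
A1a (`FundIdentity.fundamentalIdentityAlong`), A1c (`LevelMaps`) and the push-forward norm formula
along `α` (A1b).
-/
import Fermat.Agent.N4F.A.LevelMaps
import Fermat.Agent.N4F.A.FundIdentity

set_option autoImplicit false
set_option linter.style.haveILetI false

open AlgebraicCurve IntermediateField ModularCurve

namespace Fermat.Agent.N4F.A.HeckeInputs

open Fermat.Agent.N4F.A.LevelMaps Fermat.Agent.N4F.A.FundIdentity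

local notation "Qbar" => AlgebraicClosure ℚ

variable (N ℓ : ℕ) [NeZero N] [NeZero ℓ]

/-- The fundamental identity `Σ e_w deg w = [F_{Nℓ} : βF_N] deg v` along `β`. -/
theorem fundamentalIdentityAlong_heckeBetaBar :
    haveI := hasPrincipalDivisors_bar (N * ℓ)
    FundamentalIdentityAlong Qbar (heckeBetaBar Qbar N ℓ) (heckeBetaBarIntegral N ℓ) := by
  haveI := hasPrincipalDivisors_bar (N * ℓ)
  exact fundamentalIdentityAlong (heckeBetaBar Qbar N ℓ) (heckeBetaBarIntegral N ℓ)
    (finiteAlong_heckeBetaBar N ℓ) (finite_residueField_bar N)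

/-- The fundamental identity along `α`. -/
theorem fundamentalIdentityAlong_heckeAlphaBar :
    haveI := hasPrincipalDivisors_bar (N * ℓ)
    FundamentalIdentityAlong Qbar (heckeAlphaBar Qbar N ℓ) (heckeAlphaBarIntegral N ℓ) := by
  haveI := hasPrincipalDivisors_bar (N * ℓ)
  exact fundamentalIdentityAlong (heckeAlphaBar Qbar N ℓ) (heckeAlphaBarIntegral N ℓ)
    (finiteAlong_heckeAlphaBar N ℓ) (finite_residueField_bar N)

/-- **A1d, conditional on the norm formula along `α`** (A1b). -/
theorem heckeInputsAlong_of_normFormula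
    (hNF : NormFormulaAlong Qbar (heckeAlphaBar Qbar N ℓ) (finiteAlong_heckeAlphaBar N ℓ)) :
    HeckeInputsAlong Qbar N ℓ :=
  ⟨heckeAlphaBarIntegral N ℓ, heckeBetaBarIntegral N ℓ, hasPrincipalDivisors_bar (N * ℓ),
    finiteAlong_heckeAlphaBar N ℓ, fundamentalIdentityAlong_heckeBetaBar N ℓ, hNF⟩

end Fermat.Agent.N4F.A.HeckeInputs
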