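/-
N4-FULL, block A (Hecke correspondences), generic function-field part 1:
for a finite separable extension `F'/F` of function fields over `K` (prelude `AlgebraicCurve.Place`)
* the places of `F'` above a place `v` of `F` are the primes of the integral closure `B_v` of `O_v`
  in `F'`, with the prelude's ramification index / inertia degree equal to Mathlib's;
* `sumRamificationInertia : SumRamificationInertia K F F'` (hence `FundamentalIdentity`);
* `pushforwardNormFormula : Divisor.PushforwardNormFormula K F F'`.
-/
import Mathlib
import Fermat.Prelude.Def_AlgebraicCurve_Correspondence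
import Fermat.Agent.S24.PlaceDict

set_option autoImplicit false
set_option linter.unusedSectionVars false
set_option linter.style.haveILetI false

namespace Fermat.Agent.N4F.A.PlaceFiber

open AlgebraicCurve IsDedekindDomain IsLocalRing Fermat.Agent.S24

/-! ### Places containing a Dedekind domain: the general dictionary -/

section General

variable {K F : Type*} [Field K] [Field F] [Algebra K F]
variable {R : Type*} [CommRing R] [IsDedekindDomain R] [Algebra R F] [IsFractionRing R F]
  [Algebra K R] [IsScalarTower K R F]

/-- The order at a place containing `R` is the adic order of its centre. -/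
theorem ord_eq_of_forall_mem (w : Place K F)
    (hR : ∀ r : R, algebraMap R F r ∈ w.toValuationSubring) (f : F) :
    w.ord f = -(WithZero.log ((centerSpec w hR).valuation F f)) := by
  have h := ofHeightOneSpectrum_centerSpec w hR
  conv_lhs => rw [← h]
  exact ord_ofHeightOneSpectrum _ f

/-- The inclusion of `R` in the valuation ring of a place containing it. -/
noncomputable def toPlaceHom (w : Place K F)
    (hR : ∀ r : R, algebraMap R F r ∈ w.toValuationSubring) : R →ₐ[K] w.toValuationSubring where
  __ := (algebraMap R F).codRestrict w.toValuationSubring.toSubring hR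
  commutes' a := by
    apply Subtype.ext
    show algebraMap R F (algebraMap K R a) = algebraMap K F a
    rw [← IsScalarTower.algebraMap_apply]

@[simp]
theorem coe_toPlaceHom (w : Place K F)
    (hR : ∀ r : R, algebraMap R F r ∈ w.toValuationSubring) (r : R) :
    ((toPlaceHom w hR r : w.toValuationSubring) : F) = algebraMap R F r := rfl

/-- The reduction map `R → k_w`. -/
noncomputable def resHom (w : Place K F)
    (hR : ∀ r : R, algebraMap R F r ∈ w.toValuationSubring) : R →ₐ[K] w.ResidueField :=
  (IsScalarTower.toAlgHom K w.toValuationSubring w.ResidueField).comp (toPlaceHom w hR)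

theorem resHom_apply (w : Place K F)
    (hR : ∀ r : R, algebraMap R F r ∈ w.toValuationSubring) (r : R) :
    resHom w hR r = IsLocalRing.residue _ (toPlaceHom w hR r) := rfl

theorem ker_resHom (w : Place K F)
    (hR : ∀ r : R, algebraMap R F r ∈ w.toValuationSubring) :
    RingHom.ker (resHom w hR) = center w hR := by
  ext r
  rw [RingHom.mem_ker, resHom_apply, IsLocalRing.residue_eq_zero_iff, mem_center_iff]
  rfl

theorem resHom_surjective (w : Place K F)
    (hR : ∀ r : R, algebraMap R F r ∈ w.toValuationSubring) :
    Function.Surjective (resHom w hR) := by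
  have h := ofHeightOneSpectrum_centerSpec w hR
  generalize centerSpec w hR = P at h
  subst h
  exact toResidueHom_surjective (K := K) (F := F) P

/-- `R ⧸ center ≃ k_w`. -/
noncomputable def residueEquiv (w : Place K F)
    (hR : ∀ r : R, algebraMap R F r ∈ w.toValuationSubring) :
    (R ⧸ center w hR) ≃ₐ[K] w.ResidueField :=
  (Ideal.quotientEquivAlgOfEq K (ker_resHom w hR).symm).trans
    (Ideal.quotientKerAlgEquivOfSurjective (resHom_surjective w hR))

theorem residueEquiv_mk (w : Place K F)
    (hR : ∀ r : R, algebraMap R F r ∈ w.toValuationSubring) (r : R) :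
    residueEquiv w hR (Ideal.Quotient.mk _ r) = IsLocalRing.residue _ (toPlaceHom w hR r) := rfl

instance center_isMaximal (w : Place K F)
    (hR : ∀ r : R, algebraMap R F r ∈ w.toValuationSubring) : (center w hR).IsMaximal :=
  (centerSpec w hR).isMaximal

/-- A place containing `R` is determined by its centre. -/
theorem eq_of_center_eq {w w' : Place K F}
    (hR : ∀ r : R, algebraMap R F r ∈ w.toValuationSubring)
    (hR' : ∀ r : R, algebraMap R F r ∈ w'.toValuationSubring)
    (h : center w hR = center w' hR') : w = w' := by
  rw [← ofHeightOneSpectrum_centerSpec w hR, ← ofHeightOneSpectrum_centerSpec w' hR']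
  congr 1
  exact HeightOneSpectrum.ext h

end General


/-! ### The integral closure of `O_v` in a finite separable extension -/

section Relative

variable {K F : Type*} (F' : Type*) [Field K] [Field F] [Field F']
  [Algebra K F] [Algebra K F'] [Algebra F F'] [IsScalarTower K F F']
  [FiniteDimensional F F'] [Algebra.IsSeparable F F']

instance isScalarTower_place (v : Place K F) : IsScalarTower K v.toValuationSubring F' :=
  IsScalarTower.of_algebraMap_eq fun a => by
    rw [IsScalarTower.algebraMap_apply K F F']
    rfl

/-- The integral closure `B_v` of `O_v` in `F'`. -/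
abbrev Bv (v : Place K F) : Subalgebra v.toValuationSubring F' :=
  integralClosure v.toValuationSubring F'

instance isDedekindDomain_Bv (v : Place K F) : IsDedekindDomain (Bv F' v) :=
  integralClosure.isDedekindDomain v.toValuationSubring F F'

instance isFractionRing_Bv (v : Place K F) : IsFractionRing (Bv F' v) F' :=
  integralClosure.isFractionRing_of_finite_extension F F'

instance finite_Bv (v : Place K F) : Module.Finite v.toValuationSubring (Bv F' v) :=
  IsIntegralClosure.finite v.toValuationSubring F F' _

instance free_Bv (v : Place K F) : Module.Free v.toValuationSubring (Bv F' v) :=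
  IsIntegralClosure.module_free v.toValuationSubring F F' _

theorem finrank_Bv (v : Place K F) :
    Module.finrank v.toValuationSubring (Bv F' v) = Module.finrank F F' :=
  IsIntegralClosure.rank v.toValuationSubring F F' _

variable {F'}

theorem algebraMap_mem_of_restrict_eq {v : Place K F} {w : Place K F'} (hw : w.restrict F = v)
    (a : v.toValuationSubring) :
    algebraMap v.toValuationSubring F' a ∈ w.toValuationSubring := by
  subst hw
  exact a.2

/-- `B_v` is contained in the valuation ring of every place above `v`. -/
theorem Bv_le {v : Place K F} {w : Place K F'} (hw : w.restrict F = v) (b : Bv F' v) :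
    algebraMap (Bv F' v) F' b ∈ w.toValuationSubring :=
  mem_of_isIntegral_of_forall_mem w (algebraMap_mem_of_restrict_eq hw) b.2

/-- The prime of `B_v` cut out by a place `w` above `v`. -/
noncomputable def centerAt {v : Place K F} {w : Place K F'} (hw : w.restrict F = v) :
    Ideal (Bv F' v) :=
  center w (Bv_le hw)

instance centerAt_isMaximal {v : Place K F} {w : Place K F'} (hw : w.restrict F = v) :
    (centerAt hw).IsMaximal :=
  center_isMaximal w (Bv_le hw)

theorem mem_centerAt_iff {v : Place K F} {w : Place K F'} (hw : w.restrict F = v) (b : Bv F' v) :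
    b ∈ centerAt hw ↔
      (⟨(b : F'), Bv_le hw b⟩ : w.toValuationSubring) ∈ maximalIdeal w.toValuationSubring :=
  Iff.rfl

instance centerAt_liesOver {v : Place K F} {w : Place K F'} (hw : w.restrict F = v) :
    (centerAt hw).LiesOver (maximalIdeal v.toValuationSubring) := by
  subst hw
  refine ⟨?_⟩
  ext a
  rw [Ideal.under_def, Ideal.mem_comap, mem_centerAt_iff]
  change _ ↔ Place.restrictInclusion F w a ∈ maximalIdeal w.toValuationSubring
  constructor
  · intro ha
    rw [mem_maximalIdeal, mem_nonunits_iff] at ha ⊢
    exact fun h => ha (h.of_map (Place.restrictInclusion F w) a)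
  · intro ha
    rw [mem_maximalIdeal, mem_nonunits_iff] at ha ⊢
    exact fun h => ha (h.map _)


/-! ### From primes of `B_v` to places above `v` -/

/-- The place attached to a nonzero prime of `B_v`. -/
noncomputable def placeOfPrime (v : Place K F) (Q : HeightOneSpectrum (Bv F' v)) : Place K F' :=
  Place.ofHeightOneSpectrum Q

theorem restrict_placeOfPrime (v : Place K F) (Q : HeightOneSpectrum (Bv F' v)) :
    (placeOfPrime v Q).restrict F = v := by
  apply Place.ext
  symm
  refine ValuationSubring.eq_of_le_of_ne_top _ ?_ ((placeOfPrime v Q).restrict F).ne_top'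
  intro a ha
  show algebraMap F F' a ∈ (placeOfPrime v Q).toValuationSubring
  exact algebraMap_mem_ofHeightOneSpectrum Q
    (algebraMap v.toValuationSubring (Bv F' v) ⟨a, ha⟩)

theorem centerAt_placeOfPrime (v : Place K F) (Q : HeightOneSpectrum (Bv F' v)) :
    centerAt (restrict_placeOfPrime v Q) = Q.asIdeal :=
  congrArg HeightOneSpectrum.asIdeal (centerSpec_ofHeightOneSpectrum (K := K) (F := F') Q)

theorem centerAt_ne_bot {v : Place K F} {w : Place K F'} (hw : w.restrict F = v) :
    centerAt hw ≠ ⊥ :=
  center_ne_bot w (Bv_le hw)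

/-- The prime of `B_v` cut out by `w`, as an element of the height one spectrum. -/
noncomputable def centerSpecAt {v : Place K F} {w : Place K F'} (hw : w.restrict F = v) :
    HeightOneSpectrum (Bv F' v) :=
  centerSpec w (Bv_le hw)

theorem centerSpecAt_asIdeal {v : Place K F} {w : Place K F'} (hw : w.restrict F = v) :
    (centerSpecAt hw).asIdeal = centerAt hw := rfl

theorem placeOfPrime_centerSpecAt {v : Place K F} {w : Place K F'} (hw : w.restrict F = v) :
    placeOfPrime v (centerSpecAt hw) = w :=
  ofHeightOneSpectrum_centerSpec w (Bv_le hw)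

/-- Two places above `v` with the same centre on `B_v` are equal. -/
theorem eq_of_centerAt_eq {v : Place K F} {w w' : Place K F'} (hw : w.restrict F = v)
    (hw' : w'.restrict F = v) (h : centerAt hw = centerAt hw') : w = w' :=
  eq_of_center_eq (Bv_le hw) (Bv_le hw') h

theorem maximalIdeal_ne_bot (v : Place K F) : maximalIdeal v.toValuationSubring ≠ ⊥ :=
  IsDiscreteValuationRing.not_a_field _

/-! ### Ramification index and inertia degree -/

/-- The prelude's ramification index is Mathlib's. -/
theorem ramificationIndex_eq {v : Place K F} {w : Place K F'} (hw : w.restrict F = v) :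
    w.ramificationIndex F = (centerAt hw).ramificationIdx v.toValuationSubring := by
  subst hw
  obtain ⟨π, hπ⟩ := IsDiscreteValuationRing.exists_irreducible (w.restrict F).toValuationSubring
  have h1 := w.ord_restrict (F := F) (π : F)
  rw [(w.restrict F).ord_coe_irreducible hπ, mul_one] at h1
  have h2 := ord_eq_of_forall_mem w (Bv_le (rfl : w.restrict F = w.restrict F))
    (algebraMap F F' (π : F))
  haveI : (centerSpecAt (rfl : w.restrict F = w.restrict F)).asIdeal.LiesOver
      (w.restrict F).heightOneSpectrum.asIdeal :=
    centerAt_liesOver (rfl : w.restrict F = w.restrict F)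
  have h3 := HeightOneSpectrum.valuation_liesOver F' (w.restrict F).heightOneSpectrum
    (centerSpecAt (rfl : w.restrict F = w.restrict F)) (π : F)
  have h4 : (w.restrict F).heightOneSpectrum.valuation F (π : F) = WithZero.exp (-1 : ℤ) :=
    (w.restrict F).adicValuation_coe_irreducible hπ
  rw [h4] at h3
  have h5 : w.ord (algebraMap F F' (π : F)) =
      ((maximalIdeal (w.restrict F).toValuationSubring).ramificationIdx'
        (centerAt (rfl : w.restrict F = w.restrict F)) : ℤ) := by
    rw [h2]
    change -WithZero.log ((centerSpecAt (rfl : w.restrict F = w.restrict F)).valuation F'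
      (algebraMap F F' (π : F))) = _
    rw [← h3, ← WithZero.exp_nsmul, WithZero.log_exp]
    simp
    rfl
  rw [h1] at h5
  have h6 := Ideal.ramificationIdx'_eq_ramificationIdx
    (maximalIdeal (w.restrict F).toValuationSubring)
    (centerAt (rfl : w.restrict F = w.restrict F)) (maximalIdeal_ne_bot (w.restrict F))
  rw [← h6]
  exact_mod_cast h5

/-- The prelude's inertia degree is Mathlib's. -/
theorem inertiaDeg_eq {v : Place K F} {w : Place K F'} (hw : w.restrict F = v) :
    w.inertiaDeg F = (centerAt hw).inertiaDeg v.toValuationSubring := by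
  subst hw
  rw [Ideal.inertiaDeg_eq_of_isMaximal (maximalIdeal (w.restrict F).toValuationSubring)
    (centerAt (rfl : w.restrict F = w.restrict F))]
  symm
  refine Algebra.finrank_eq_of_equiv_equiv
    (RingEquiv.refl ((w.restrict F).toValuationSubring ⧸
      maximalIdeal (w.restrict F).toValuationSubring))
    (residueEquiv w (Bv_le (rfl : w.restrict F = w.restrict F))).toRingEquiv ?_
  ext x
  rfl


/-! ### The fundamental identity -/

section FI

variable [HasPrincipalDivisors K F']

/-- The prime of `B_v` over `𝔪_v` attached to a place in the fibre of `v`. -/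
noncomputable def primeOfFiber (v : Place K F) (w : Place K F') (hw : w ∈ v.fiber F') :
    (maximalIdeal v.toValuationSubring).primesOver (Bv F' v) :=
  ⟨centerAt (Place.mem_fiber.mp hw),
    ⟨(centerAt_isMaximal (Place.mem_fiber.mp hw)).isPrime,
      centerAt_liesOver (Place.mem_fiber.mp hw)⟩⟩

theorem primeOfFiber_injective (v : Place K F) (w₁ : Place K F') (hw₁ : w₁ ∈ v.fiber F')
    (w₂ : Place K F') (hw₂ : w₂ ∈ v.fiber F')
    (h : primeOfFiber v w₁ hw₁ = primeOfFiber v w₂ hw₂) : w₁ = w₂ :=
  eq_of_centerAt_eq (Place.mem_fiber.mp hw₁) (Place.mem_fiber.mp hw₂)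
    (congrArg Subtype.val h)

theorem primeOfFiber_surjective (v : Place K F)
    (q : (maximalIdeal v.toValuationSubring).primesOver (Bv F' v)) :
    ∃ (w : Place K F') (hw : w ∈ v.fiber F'), primeOfFiber v w hw = q := by
  haveI : q.1.IsPrime := q.2.1
  haveI : q.1.LiesOver (maximalIdeal v.toValuationSubring) := q.2.2
  have hq0 : q.1 ≠ ⊥ := Ideal.ne_bot_of_liesOver_of_ne_bot (maximalIdeal_ne_bot v) q.1
  set Q : HeightOneSpectrum (Bv F' v) := ⟨q.1, q.2.1, hq0⟩ with hQ
  refine ⟨placeOfPrime v Q, Place.mem_fiber.mpr (restrict_placeOfPrime v Q), ?_⟩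
  apply Subtype.ext
  exact centerAt_placeOfPrime v Q

/-- **`Σ_{w ∣ v} e_w f_w = [F' : F]`.** -/
theorem sum_ramificationIndex_mul_inertiaDeg (v : Place K F) :
    ∑ w ∈ v.fiber F', (w.ramificationIndex F : ℤ) * (w.inertiaDeg F : ℤ) =
      (Module.finrank F F' : ℤ) := by
  classical
  haveI : Fintype ((maximalIdeal v.toValuationSubring).primesOver (Bv F' v)) :=
    (Algebra.QuasiFinite.finite_primesOver (maximalIdeal v.toValuationSubring)).fintype
  have key := Ideal.sum_ramification_inertia_eq_finrank (maximalIdeal v.toValuationSubring)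
    (Bv F' v)
  rw [finrank_Bv] at key
  rw [← key]
  push_cast
  refine Finset.sum_bij (fun w hw => primeOfFiber v w hw) (fun _ _ => Finset.mem_univ _)
    (primeOfFiber_injective v) (fun q _ => primeOfFiber_surjective v q) ?_
  intro w hw
  rw [ramificationIndex_eq (Place.mem_fiber.mp hw), inertiaDeg_eq (Place.mem_fiber.mp hw)]
  rfl

instance sumRamificationInertia : SumRamificationInertia K F F' :=
  ⟨sum_ramificationIndex_mul_inertiaDeg⟩

end FI


/-! ### The norm formula -/

section NF

variable [CharZero F] [HasPrincipalDivisors K F']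

/-- Every nonzero prime of `B_v` lies over `𝔪_v`. -/
theorem liesOver_of_prime (v : Place K F) (q : Ideal (Bv F' v)) [hq : q.IsPrime] (hq0 : q ≠ ⊥) :
    q.LiesOver (maximalIdeal v.toValuationSubring) := by
  haveI : q.IsMaximal := hq.isMaximal hq0
  haveI : (q.under v.toValuationSubring).IsMaximal := Ideal.IsMaximal.under _ q
  exact ⟨(IsLocalRing.eq_maximalIdeal (inferInstance : (q.under v.toValuationSubring).IsMaximal)).symm⟩

theorem prime_maximalIdeal (v : Place K F) : Prime (maximalIdeal v.toValuationSubring) :=
  Ideal.prime_of_isPrime (maximalIdeal_ne_bot v) inferInstance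

/-- **The ideal-theoretic norm formula**: `ord_𝔪 (N I) = Σ_{w ∣ v} f_w · ord_{Q_w} I`. -/
theorem multiplicity_relNorm (v : Place K F) (I : Ideal (Bv F' v)) (hI : I ≠ 0) :
    (multiplicity (maximalIdeal v.toValuationSubring)
      (Ideal.relNorm v.toValuationSubring I) : ℤ) =
      ∑ w ∈ (v.fiber F').attach, (w.1.inertiaDeg F : ℤ) *
        (multiplicity (centerAt (Place.mem_fiber.mp w.2)) I : ℤ) := by
  classical
  induction I using UniqueFactorizationMonoid.induction_on_prime with
  | h₁ => exact absurd rfl hI
  | h₂ x hx =>
    have hx' : x = ⊤ := Ideal.isUnit_iff.mp hx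
    subst hx'
    rw [Ideal.relNorm_top, multiplicity_of_isUnit_right (prime_maximalIdeal v).not_isUnit
      (Ideal.isUnit_iff.mpr rfl)]
    symm
    apply Finset.sum_eq_zero
    intro w _
    have hprime : Prime (centerAt (Place.mem_fiber.mp w.2)) :=
      Ideal.prime_of_isPrime (centerAt_ne_bot _) (centerAt_isMaximal _).isPrime
    rw [multiplicity_of_isUnit_right hprime.not_isUnit (Ideal.isUnit_iff.mpr rfl)]
    simp
  | h₃ a q ha hq ih =>
    have hq0 : q ≠ ⊥ := hq.ne_zero
    haveI hqp : q.IsPrime := Ideal.isPrime_of_prime hq
    haveI hqm : q.IsMaximal := hqp.isMaximal hq0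
    haveI hlo : q.LiesOver (maximalIdeal v.toValuationSubring) := liesOver_of_prime v q hq0
    set Q : HeightOneSpectrum (Bv F' v) := ⟨q, hqp, hq0⟩ with hQ
    have hw₀ : placeOfPrime v Q ∈ v.fiber F' := Place.mem_fiber.mpr (restrict_placeOfPrime v Q)
    have hcw₀ : centerAt (Place.mem_fiber.mp hw₀) = q := centerAt_placeOfPrime v Q
    have hqa : q * a ≠ 0 := mul_ne_zero hq.ne_zero ha
    have hfin : FiniteMultiplicity (maximalIdeal v.toValuationSubring)
        (Ideal.relNorm v.toValuationSubring q * Ideal.relNorm v.toValuationSubring a) := by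
      apply FiniteMultiplicity.of_prime_left (prime_maximalIdeal v)
      rw [← map_mul]
      intro h0
      exact hqa (Ideal.relNorm_eq_bot_iff.mp h0)
    rw [map_mul, multiplicity_mul (prime_maximalIdeal v) hfin, Nat.cast_add, ih ha,
      Ideal.relNorm_eq_pow_of_isMaximal q (maximalIdeal v.toValuationSubring),
      multiplicity_pow_self_of_prime (prime_maximalIdeal v)]
    have hsplit : ∀ w ∈ (v.fiber F').attach, (w.1.inertiaDeg F : ℤ) *
        (multiplicity (centerAt (Place.mem_fiber.mp w.2)) (q * a) : ℤ) =
        (w.1.inertiaDeg F : ℤ) * (multiplicity (centerAt (Place.mem_fiber.mp w.2)) q : ℤ) +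
        (w.1.inertiaDeg F : ℤ) * (multiplicity (centerAt (Place.mem_fiber.mp w.2)) a : ℤ) := by
      intro w _
      have hprime : Prime (centerAt (Place.mem_fiber.mp w.2)) :=
        Ideal.prime_of_isPrime (centerAt_ne_bot _) (centerAt_isMaximal _).isPrime
      rw [multiplicity_mul hprime (FiniteMultiplicity.of_prime_left hprime hqa)]
      push_cast
      ring
    rw [Finset.sum_congr rfl hsplit, Finset.sum_add_distrib]
    congr 1
    rw [Finset.sum_eq_single (⟨placeOfPrime v Q, hw₀⟩ : {w // w ∈ v.fiber F'})]
    · rw [inertiaDeg_eq (Place.mem_fiber.mp hw₀)]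
      simp only [hcw₀, multiplicity_self, Nat.cast_one, mul_one]
    · intro w _ hne
      have hprime : Prime (centerAt (Place.mem_fiber.mp w.2)) :=
        Ideal.prime_of_isPrime (centerAt_ne_bot _) (centerAt_isMaximal _).isPrime
      have hnd : ¬ centerAt (Place.mem_fiber.mp w.2) ∣ q := by
        intro hd
        have hle : q ≤ centerAt (Place.mem_fiber.mp w.2) := Ideal.le_of_dvd hd
        have heq : q = centerAt (Place.mem_fiber.mp w.2) :=
          hqm.eq_of_le (centerAt_isMaximal _).ne_top hle
        apply hne
        apply Subtype.ext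
        exact eq_of_centerAt_eq (Place.mem_fiber.mp w.2) (Place.mem_fiber.mp hw₀)
          (heq.symm.trans hcw₀.symm)
      rw [multiplicity_eq_zero.mpr hnd]
      simp
    · intro h
      exact absurd (Finset.mem_attach _ _) h

theorem ord_coe_eq_multiplicity (v : Place K F) (a : v.toValuationSubring) (ha : a ≠ 0) :
    v.ord (a : F) = (multiplicity (maximalIdeal v.toValuationSubring) (Ideal.span {a}) : ℤ) := by
  rw [Place.ord, v.adicValuation_coe a,
    HeightOneSpectrum.intValuation_eq_exp_neg_multiplicity _ ha, WithZero.log_exp, neg_neg]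
  rfl

theorem ord_coe_Bv_eq_multiplicity {v : Place K F} {w : Place K F'} (hw : w.restrict F = v)
    (b : Bv F' v) (hb : b ≠ 0) :
    w.ord (b : F') = (multiplicity (centerAt hw) (Ideal.span {b}) : ℤ) := by
  rw [ord_eq_of_forall_mem w (Bv_le hw)]
  have h1 : (centerSpec w (Bv_le hw)).valuation F' (b : F') =
      (centerSpec w (Bv_le hw)).intValuation b :=
    HeightOneSpectrum.valuation_of_algebraMap _ b
  rw [h1, HeightOneSpectrum.intValuation_eq_exp_neg_multiplicity _ hb, WithZero.log_exp, neg_neg]
  rfl

/-- The norm formula for elements of `B_v`. -/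
theorem ord_norm_Bv (v : Place K F) (b : Bv F' v) (hb : b ≠ 0) :
    v.ord (Algebra.norm F (b : F')) =
      ∑ w ∈ (v.fiber F').attach, (w.1.inertiaDeg F : ℤ) * w.1.ord (b : F') := by
  have h1 : ((Algebra.intNorm v.toValuationSubring (Bv F' v) b : v.toValuationSubring) : F) =
      Algebra.norm F (b : F') :=
    Algebra.algebraMap_intNorm (A := v.toValuationSubring) (K := F) (L := F') b
  have hb' : (b : F') ≠ 0 := fun h => hb (Subtype.ext h)
  have h2 : Algebra.intNorm v.toValuationSubring (Bv F' v) b ≠ 0 := by
    intro h0
    rw [h0] at h1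
    exact hb' (Algebra.norm_eq_zero_iff.mp h1.symm)
  rw [← h1, ord_coe_eq_multiplicity v _ h2, ← Ideal.relNorm_singleton,
    multiplicity_relNorm v (Ideal.span {b}) (by simpa using hb)]
  refine Finset.sum_congr rfl fun w _ => ?_
  rw [ord_coe_Bv_eq_multiplicity (Place.mem_fiber.mp w.2) b hb]

theorem ord_div (w : Place K F') {x y : F'} (hx : x ≠ 0) (hy : y ≠ 0) :
    w.ord (x / y) = w.ord x - w.ord y := by
  rw [div_eq_mul_inv, w.ord_mul hx (inv_ne_zero hy), w.ord_inv]
  ring

/-- **The norm formula**: `ord_v (N g) = Σ_{w ∣ v} f_w · ord_w g`. -/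
theorem ord_norm (v : Place K F) (g : F') (hg : g ≠ 0) :
    v.ord (Algebra.norm F g) =
      ∑ w ∈ (v.fiber F').attach, (w.1.inertiaDeg F : ℤ) * w.1.ord g := by
  obtain ⟨b₁, b₂, hb₂, rfl⟩ := IsFractionRing.div_surjective (A := Bv F' v) g
  have hb₂0 : b₂ ≠ 0 := nonZeroDivisors.ne_zero hb₂
  have hb₁0 : b₁ ≠ 0 := by
    rintro rfl
    simp at hg
  have h1 : (algebraMap (Bv F' v) F' b₁) ≠ 0 := fun h => hb₁0 (Subtype.ext h)
  have h2 : (algebraMap (Bv F' v) F' b₂) ≠ 0 := fun h => hb₂0 (Subtype.ext h)
  have hn2 : Algebra.norm F (algebraMap (Bv F' v) F' b₂) ≠ 0 :=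
    fun h => h2 (Algebra.norm_eq_zero_iff.mp h)
  have hng : Algebra.norm F (algebraMap (Bv F' v) F' b₁ / algebraMap (Bv F' v) F' b₂) ≠ 0 :=
    fun h => hg (Algebra.norm_eq_zero_iff.mp h)
  have e1 := ord_norm_Bv v b₁ hb₁0
  have e2 := ord_norm_Bv v b₂ hb₂0
  have hmul : Algebra.norm F (algebraMap (Bv F' v) F' b₁ / algebraMap (Bv F' v) F' b₂) *
      Algebra.norm F (algebraMap (Bv F' v) F' b₂) =
      Algebra.norm F (algebraMap (Bv F' v) F' b₁) := by
    rw [← map_mul, div_mul_cancel₀ _ h2]
  have hd : v.ord (Algebra.norm F (algebraMap (Bv F' v) F' b₁ / algebraMap (Bv F' v) F' b₂)) =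
      v.ord (Algebra.norm F (algebraMap (Bv F' v) F' b₁)) -
        v.ord (Algebra.norm F (algebraMap (Bv F' v) F' b₂)) := by
    rw [← hmul, v.ord_mul hng hn2]
    ring
  rw [hd]
  change v.ord (Algebra.norm F (b₁ : F')) - v.ord (Algebra.norm F (b₂ : F')) = _
  rw [e1, e2, ← Finset.sum_sub_distrib]
  refine Finset.sum_congr rfl fun w _ => ?_
  rw [ord_div w.1 h1 h2]
  change _ = (w.1.inertiaDeg F : ℤ) * (w.1.ord (b₁ : F') - w.1.ord (b₂ : F'))
  ring

/-- **`Divisor.PushforwardNormFormula`** for a finite extension of function fields in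
characteristic zero. -/
theorem pushforwardNormFormula : Divisor.PushforwardNormFormula K F F' := by
  classical
  intro f hf D hD v
  rw [Divisor.pushforward_apply, ord_norm v f hf,
    Finset.sum_attach (v.fiber F') (fun w => (w.inertiaDeg F : ℤ) * w.ord f),
    ← Finset.sum_filter]
  refine Finset.sum_subset_zero_on_sdiff ?_ ?_ ?_
  · intro w hw
    rw [Finset.mem_filter] at hw
    exact Place.mem_fiber.mpr hw.2
  · intro w hw
    rw [Finset.mem_sdiff, Finset.mem_filter, not_and] at hw
    have hD0 : D w = 0 := by
      by_contra hne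
      exact hw.2 (Finsupp.mem_support_iff.mpr hne) (Place.mem_fiber.mp hw.1)
    rw [← hD w, hD0, mul_zero]
  · intro w _
    rw [hD w, mul_comm]

end NF

end Relative

/-! ### The `Along` forms (prelude `Def_AlgebraicCurve_Correspondence`) -/

section Along

variable {K F F' : Type*} [Field K] [Field F] [Field F'] [Algebra K F] [Algebra K F']
  [CharZero K]

theorem charZero_of_algebra (K F : Type*) [Field K] [Field F] [Algebra K F] [CharZero K] :
    CharZero F :=
  charZero_of_injective_algebraMap (algebraMap K F).injective

/-- A finite homomorphism of function fields is integral. -/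
theorem isIntegral_of_finiteAlong (φ : F →ₐ[K] F') (hfin : FiniteAlong K φ) :
    φ.toRingHom.IsIntegral := by
  letI := algebraAlong φ
  haveI : Module.Finite F F' := hfin
  exact (Algebra.IsIntegral.of_finite F F').isIntegral

/-- **`FundamentalIdentityAlong`** for every finite homomorphism of function fields
(characteristic zero). -/
theorem fundamentalIdentityAlong (φ : F →ₐ[K] F') (hfin : FiniteAlong K φ)
    (hφ : φ.toRingHom.IsIntegral) [HasPrincipalDivisors K F'] :
    FundamentalIdentityAlong K φ hφ := by
  letI := algebraAlong φ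
  haveI := isScalarTower_along φ
  haveI : Module.Finite F F' := hfin
  haveI : CharZero F := charZero_of_algebra K F
  haveI : Algebra.IsSeparable F F' := inferInstance
  exact (instFundamentalIdentityOfSumRamificationInertia :
    FundamentalIdentity K F F')

/-- **`NormFormulaAlong`** for every finite homomorphism of function fields
(characteristic zero). -/
theorem normFormulaAlong (φ : F →ₐ[K] F') (hfin : FiniteAlong K φ)
    [HasPrincipalDivisors K F'] :
    NormFormulaAlong K φ hfin := by
  letI := algebraAlong φ
  haveI := isScalarTower_along φ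
  haveI : Module.Finite F F' := hfin
  haveI : CharZero F := charZero_of_algebra K F
  haveI : Algebra.IsSeparable F F' := inferInstance
  exact (pushforwardNormFormula : Divisor.PushforwardNormFormula K F F')

end Along

end Fermat.Agent.N4F.A.PlaceFiber
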