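/-
N4-FULL, Block A, node A1 (final): `ModularCurve.HeckeInputsAlong ℚ̄ N ℓ` is a THEOREM, for every
level `N` and every `ℓ` (assembly of A1a–A1d: `LevelMaps`, `FundIdentity`, `HeckeInputs` and the
generic norm formula of `PlaceFiber`).  Consequently `heckeOperatorAlong ℚ̄ N ℓ` unfolds to
`heckePic0Bar`.
-/
import Fermat.Agent.N4F.A.HeckeInputs
import Fermat.Agent.N4F.A.PlaceFiber

set_option autoImplicit false
set_option linter.style.haveILetI false

open AlgebraicCurve IntermediateField ModularCurve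

namespace Fermat.Agent.N4F.A.HeckeInputsFinal

open Fermat.Agent.N4F.A.LevelMaps Fermat.Agent.N4F.A.HeckeInputs

local notation "Qbar" => AlgebraicClosure ℚ

variable (N ℓ : ℕ) [NeZero N] [NeZero ℓ]

/-- The norm formula along `α` (A1b). -/
theorem normFormulaAlong_heckeAlphaBar :
    NormFormulaAlong Qbar (heckeAlphaBar Qbar N ℓ) (finiteAlong_heckeAlphaBar N ℓ) := by
  haveI := hasPrincipalDivisors_bar (N * ℓ)
  exact PlaceFiber.normFormulaAlong (heckeAlphaBar Qbar N ℓ) (finiteAlong_heckeAlphaBar N ℓ)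

/-- The norm formula along `β`. -/
theorem normFormulaAlong_heckeBetaBar :
    NormFormulaAlong Qbar (heckeBetaBar Qbar N ℓ) (finiteAlong_heckeBetaBar N ℓ) := by
  haveI := hasPrincipalDivisors_bar (N * ℓ)
  exact PlaceFiber.normFormulaAlong (heckeBetaBar Qbar N ℓ) (finiteAlong_heckeBetaBar N ℓ)

/-- **A1: `HeckeInputsAlong ℚ̄ N ℓ`**, unconditionally. -/
theorem heckeInputsAlong : HeckeInputsAlong Qbar N ℓ :=
  heckeInputsAlong_of_normFormula N ℓ (normFormulaAlong_heckeAlphaBar N ℓ)

/-- The Hecke correspondence `T_ℓ` on `J_0(N)` is the honest one. -/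
theorem heckeOperatorAlong_eq_heckePic0Bar :
    haveI := hasPrincipalDivisors_bar (N * ℓ)
    heckeOperatorAlong Qbar N ℓ =
      heckePic0Bar (heckeAlphaBarIntegral N ℓ) (heckeBetaBarIntegral N ℓ)
        (fundamentalIdentityAlong_heckeBetaBar N ℓ) (finiteAlong_heckeAlphaBar N ℓ)
        (normFormulaAlong_heckeAlphaBar N ℓ) := by
  haveI := hasPrincipalDivisors_bar (N * ℓ)
  exact heckeOperatorAlong_eq _ _ _ _ _

end Fermat.Agent.N4F.A.HeckeInputsFinal
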