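/-
N4-FULL, block A, node A2 (generic half, helper29): transport of the place/divisor operations
of the prelude along a pair of semilinear automorphisms `g` of `F`, `g'` of `F'` intertwining a
`K`-algebra homomorphism `φ : F →ₐ[K] F'`.
-/
import Mathlib
import Fermat.Prelude.Def_AlgebraicCurve_Correspondence

set_option autoImplicit false
set_option linter.style.haveILetI false
set_option linter.unusedSectionVars false

namespace Fermat.Agent.N4F.A.Equivariant

open AlgebraicCurve
open scoped Pointwise

variable {K F F' : Type*} [Field K] [Field F] [Field F'] [Algebra K F] [Algebra K F']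

section places

variable (φ : F →ₐ[K] F') (hφ : φ.toRingHom.IsIntegral)
  {g : SemilinearAut K F} {g' : SemilinearAut K F'}
  (h : SemilinearAut.IntertwinesAlong φ.toRingHom g g')

theorem mem_restrictAlong_iff (w : Place K F') (x : F) :
    x ∈ (w.restrictAlong φ hφ).toValuationSubring ↔ φ x ∈ w.toValuationSubring :=
  Iff.rfl

include h in
/-- Restriction of places commutes with intertwining semilinear automorphisms. -/
theorem restrictAlong_smul (w : Place K F') :
    (g' • w).restrictAlong φ hφ = g • w.restrictAlong φ hφ := by
  apply Place.ext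
  ext x
  rw [mem_restrictAlong_iff, SemilinearAut.smul_toValuationSubring,
    SemilinearAut.smul_toValuationSubring,
    ValuationSubring.mem_pointwise_smul_iff_inv_smul_mem,
    ValuationSubring.mem_pointwise_smul_iff_inv_smul_mem, mem_restrictAlong_iff]
  have := h.inv x
  rw [show φ.toRingHom x = φ x from rfl] at this
  rw [this]
  rfl

include h in
theorem ord_smul_apply (w : Place K F') (f : F) :
    (g' • w).ord (φ f) = w.ord (φ (g⁻¹ • f)) := by
  have h1 := SemilinearAut.ord_smul g' w (φ (g⁻¹ • f))
  have h2 := h (g⁻¹ • f)
  rw [smul_inv_smul] at h2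
  rw [show φ.toRingHom (g⁻¹ • f) = φ (g⁻¹ • f) from rfl] at h2
  rw [h2] at h1
  exact h1

include h in
/-- The ramification index is invariant. -/
theorem ramificationIndexAlong_smul (w : Place K F') :
    Place.ramificationIndexAlong φ (g' • w) = Place.ramificationIndexAlong φ w := by
  unfold Place.ramificationIndexAlong Place.ramificationIndex
  congr 1
  ext n
  simp only [Set.mem_ofPred_eq]
  constructor
  · rintro ⟨hn, f, hf, hfn⟩
    refine ⟨hn, g⁻¹ • f, by simpa using hf, ?_⟩
    rw [← hfn]
    exact (ord_smul_apply φ h w f).symm
  · rintro ⟨hn, f, hf, hfn⟩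
    refine ⟨hn, g • f, by simpa using hf, ?_⟩
    rw [← hfn]
    have := ord_smul_apply φ h w (g • f)
    rw [inv_smul_smul] at this
    exact this

theorem deg_restrictAlong_mul_inertiaDegAlong (w : Place K F') :
    (w.restrictAlong φ hφ).deg * w.inertiaDegAlong φ hφ = w.deg := by
  letI := algebraAlong φ
  haveI := isScalarTower_along φ
  haveI := isIntegral_along φ hφ
  exact w.deg_restrict_mul_inertiaDeg (F := F)

theorem deg_pos_of_finite (v : Place K F) (hv : Module.Finite K v.ResidueField) : 0 < v.deg :=
  Module.finrank_pos

include h in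
/-- The inertia degree is invariant (for finite residue fields downstairs). -/
theorem inertiaDegAlong_smul (hres : ∀ v : Place K F, Module.Finite K v.ResidueField)
    (w : Place K F') :
    Place.inertiaDegAlong φ hφ (g' • w) = Place.inertiaDegAlong φ hφ w := by
  have h1 := deg_restrictAlong_mul_inertiaDegAlong φ hφ (g' • w)
  have h2 := deg_restrictAlong_mul_inertiaDegAlong φ hφ w
  rw [restrictAlong_smul φ hφ h w, SemilinearAut.deg_smul, SemilinearAut.deg_smul, ← h2] at h1
  exact Nat.eq_of_mul_eq_mul_left (deg_pos_of_finite _ (hres _)) h1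

end places

section divisors

variable [HasPrincipalDivisors K F'] (φ : F →ₐ[K] F') (hφ : φ.toRingHom.IsIntegral)
  {g : SemilinearAut K F} {g' : SemilinearAut K F'}
  (h : SemilinearAut.IntertwinesAlong φ.toRingHom g g')

include h in
/-- Pullback of divisors is equivariant. -/
theorem pullbackAlong_smul (D : Divisor K F) :
    Divisor.pullbackAlong φ hφ (g • D) = g' • Divisor.pullbackAlong φ hφ D := by
  ext w
  rw [Divisor.pullbackAlong_apply, SemilinearAut.divisor_smul_apply,
    SemilinearAut.divisor_smul_apply, Divisor.pullbackAlong_apply,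
    restrictAlong_smul φ hφ h.inv w, ramificationIndexAlong_smul φ h.inv w]

include h in
/-- Pushforward of divisors is equivariant. -/
theorem pushforwardAlong_smul (hres : ∀ v : Place K F, Module.Finite K v.ResidueField)
    (D : Divisor K F') :
    Divisor.pushforwardAlong φ hφ (g' • D) = g • Divisor.pushforwardAlong φ hφ D := by
  induction D using Finsupp.induction_linear with
  | zero => simp
  | add D E hD hE => rw [smul_add, map_add, map_add, smul_add, hD, hE]
  | single w n =>
    rw [SemilinearAut.smul_single, Divisor.pushforwardAlong_single,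
      Divisor.pushforwardAlong_single, SemilinearAut.smul_single,
      restrictAlong_smul φ hφ h w, inertiaDegAlong_smul φ hφ h hres w]

end divisors

section correspondence

variable [HasPrincipalDivisors K F'] (φ ψ : F →ₐ[K] F')
  (hφ : φ.toRingHom.IsIntegral) (hψ : ψ.toRingHom.IsIntegral)
  {g : SemilinearAut K F} {g' : SemilinearAut K F'}
  (h : SemilinearAut.IntertwinesAlong φ.toRingHom g g')
  (h' : SemilinearAut.IntertwinesAlong ψ.toRingHom g g')

include h h' in
/-- A correspondence `ψ_* φ^*` is equivariant for semilinear automorphisms intertwining both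
`φ` and `ψ` (divisor level). -/
theorem divisor_correspondence_smul (hres : ∀ v : Place K F, Module.Finite K v.ResidueField)
    (D : Divisor K F) :
    Divisor.correspondence φ ψ hφ hψ (g • D) = g • Divisor.correspondence φ ψ hφ hψ D := by
  rw [Divisor.correspondence_apply, Divisor.correspondence_apply, pullbackAlong_smul φ hφ h,
    pushforwardAlong_smul ψ hψ h' hres]

variable (hFI : FundamentalIdentityAlong K φ hφ)
  (hfin : FiniteAlong K ψ) (hN : NormFormulaAlong K ψ hfin)

include h h' in
/-- **A2 (generic)**: a correspondence on `Pic⁰` commutes with semilinear automorphisms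
intertwining both of its legs. -/
theorem pic0_correspondence_smul (hres : ∀ v : Place K F, Module.Finite K v.ResidueField)
    (x : Pic0 K F) :
    Pic0.correspondence φ ψ hφ hψ hFI hfin hN (g • x)
      = g • Pic0.correspondence φ ψ hφ hψ hFI hfin hN x := by
  obtain ⟨D, rfl⟩ := Pic0.mk_surjective x
  rw [SemilinearAut.pic0_smul_mk, Pic0.correspondence_mk, Pic0.correspondence_mk,
    SemilinearAut.pic0_smul_mk]
  refine congrArg Pic0.mk (Subtype.ext ?_)
  rw [Pic0.coe_degZeroCorrespondence, SemilinearAut.coe_degZeroSMulHom,
    SemilinearAut.coe_degZeroSMulHom, Pic0.coe_degZeroCorrespondence]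
  exact divisor_correspondence_smul φ ψ hφ hψ h h' hres _

end correspondence

end Fermat.Agent.N4F.A.Equivariant
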