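/-
N4-FULL, Block A, node A1-L (helper29): the level maps and the inputs of
`ModularCurve.HeckeInputsAlong L N ℓ` over an ARBITRARY coefficient field `L` admitting a ring
homomorphism `ι : L →+* ℂ` (e.g. `L = ℂ`, `ι = id`; `L = ℚ̄`; number fields).  This is helper26's
`LevelMaps.lean` (the case `L = ℚ̄`) with `ℚ̄` replaced by `L`; needed over `ℂ` by block F.
-/
import Fermat.Prelude.Def_ModularCurve_HeckeOperatorTotal
import Fermat.Agent.S24.FFBasicsC
import Fermat.Agent.S24.PrincipalDegree
import Fermat.Agent.N4F.A.LevelMaps
import Fermat.Agent.N4F.A.FundIdentity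

set_option autoImplicit false
set_option linter.style.haveILetI false
set_option linter.unusedSectionVars false

open AlgebraicCurve IntermediateField ModularCurve

namespace Fermat.Agent.N4F.A.LevelMapsL

open Fermat.Agent.N4F.A.LevelMaps (finiteAlong_of_finiteDimensional isIntegral_of_finiteAlong
  laurentBaseChange_mono)

variable {L : Type*} [Field L] [Algebra ℚ L] (ι : L →+* ℂ)

/-- The modular function field of level `M` with coefficients in `L`. -/
noncomputable abbrev FFL (L : Type*) [Field L] [Algebra ℚ L] (M : ℕ) : IntermediateField L (LaurentSeries L) :=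
  laurentBaseChange L (modularFunctionFieldFull M)

/-- `x = j(q)` as an element of the function field of level `M`. -/
noncomputable def xj (L : Type*) [Field L] [Algebra ℚ L] (M : ℕ) [NeZero M] : FFL L M :=
  ⟨jqModC L, Fermat.Agent.S24.FFBasics.jqModC_mem_laurentBaseChange L M⟩

theorem coe_xj (M : ℕ) [NeZero M] : ((xj L M : FFL L M) : LaurentSeries L) = jqModC L := rfl

theorem transcendental_xj (M : ℕ) [NeZero M] : Transcendental L (xj L M) := by
  intro halg
  have h2 : IsAlgebraic L (jqModC L) :=
    (isAlgebraic_algHom_iff (FFL L M).val (FFL L M).val.injective).mpr halg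
  exact Fermat.Agent.S24.FFBasics.transcendental_jqModC _ h2

include ι in
theorem finiteDimensional_xj (M : ℕ) [NeZero M] : FiniteDimensional L⟮xj L M⟯ (FFL L M) :=
  Fermat.Agent.S24.FFBasics.finiteDimensional_of_ringHom ι M
    (Fermat.Agent.S24.FFBasics.modularEquationOver_complex M) _ rfl

theorem charZero_of_algebraRat : CharZero L :=
  charZero_of_injective_algebraMap (algebraMap ℚ L).injective

include ι in
/-- **Principal divisors have degree zero** on the modular function field of every level. -/
theorem hasPrincipalDivisors (M : ℕ) [NeZero M] : HasPrincipalDivisors L (FFL L M) := by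
  haveI := finiteDimensional_xj ι M
  haveI : CharZero L := charZero_of_algebraRat
  exact Fermat.Agent.S24.hasPrincipalDivisors (xj L M)

include ι in
/-- All residue fields of the modular function fields are finite over `L`. -/
theorem finite_residueField (M : ℕ) [NeZero M] (v : Place L (FFL L M)) :
    Module.Finite L v.ResidueField := by
  haveI := finiteDimensional_xj ι M
  haveI : CharZero L := charZero_of_algebraRat
  exact Fermat.Agent.S24.finite_residueField' (xj L M) (transcendental_xj M) v

include ι in
theorem finiteDimensional_adjoin_simple (M : ℕ) [NeZero M] {f : FFL L M}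
    (hf : Transcendental L f) : FiniteDimensional L⟮f⟯ (FFL L M) := by
  haveI := finiteDimensional_xj ι M
  exact Fermat.Agent.S24.finiteDimensional_adjoin_simple_of_transcendental (xj L M) hf

/-! ### The level maps -/

variable (N M m : ℕ) [NeZero N] [NeZero M] [NeZero m]

/-- **The level map** `F_N → F_M`, `x(q) ↦ x(q^m)`, for `N * m ∣ M`. -/
noncomputable def levelMap (L : Type*) [Field L] [Algebra ℚ L] (h : N * m ∣ M) :
    FFL L N →ₐ[L] FFL L M :=
  (IntermediateField.inclusion (laurentBaseChange_mono L (full_degeneracy_le h))).comp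
    (heckeBetaBar L N m)

@[simp]
theorem coe_levelMap (h : N * m ∣ M) (x : FFL L N) :
    ((levelMap N M m L h x : FFL L M) : LaurentSeries L) = qExpand L m (x : LaurentSeries L) :=
  rfl

theorem transcendental_levelMap_xj (h : N * m ∣ M) :
    Transcendental L (levelMap N M m L h (xj L N)) := by
  intro h'
  exact transcendental_xj N ((isAlgebraic_algHom_iff (levelMap N M m L h)
    (levelMap N M m L h).injective).1 h')

include ι in
/-- **The level maps are finite.** -/
theorem levelMap_finite (h : N * m ∣ M) : FiniteAlong L (levelMap N M m L h) := by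
  haveI : FiniteDimensional L⟮levelMap N M m L h (xj L N)⟯ (FFL L M) :=
    finiteDimensional_adjoin_simple ι M (transcendental_levelMap_xj N M m h)
  exact finiteAlong_of_finiteDimensional (levelMap N M m L h) (xj L N)

include ι in
/-- **The level maps are integral.** -/
theorem levelMap_integral (h : N * m ∣ M) : (levelMap N M m L h).toRingHom.IsIntegral :=
  isIntegral_of_finiteAlong (levelMap_finite ι N M m h)

/-! ### The two degeneracy maps of the prelude -/

variable (ℓ : ℕ) [NeZero ℓ]

theorem heckeAlphaBar_eq :
    heckeAlphaBar L N ℓ = levelMap N (N * ℓ) 1 L (by rw [mul_one]; exact dvd_mul_right N ℓ) := by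
  refine AlgHom.ext fun x => Subtype.ext ?_
  rw [coe_heckeAlphaBar, coe_levelMap, qExpand_one_apply]

theorem heckeBetaBar_eq :
    heckeBetaBar L N ℓ = levelMap N (N * ℓ) ℓ L (dvd_refl _) := by
  refine AlgHom.ext fun x => Subtype.ext ?_
  rw [coe_heckeBetaBar, coe_levelMap]

include ι in
/-- `α : F_N → F_{Nℓ}` is finite. -/
theorem finiteAlong_heckeAlphaBar : FiniteAlong L (heckeAlphaBar L N ℓ) := by
  rw [heckeAlphaBar_eq]
  exact levelMap_finite ι _ _ _ _

include ι in
/-- `β : F_N → F_{Nℓ}`, `q ↦ q^ℓ`, is finite. -/
theorem finiteAlong_heckeBetaBar : FiniteAlong L (heckeBetaBar L N ℓ) := by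
  rw [heckeBetaBar_eq]
  exact levelMap_finite ι _ _ _ _

include ι in
theorem heckeAlphaBarIntegral : HeckeAlphaBarIntegral L N ℓ :=
  isIntegral_of_finiteAlong (finiteAlong_heckeAlphaBar ι N ℓ)

include ι in
theorem heckeBetaBarIntegral : HeckeBetaBarIntegral L N ℓ :=
  isIntegral_of_finiteAlong (finiteAlong_heckeBetaBar ι N ℓ)

include ι in
/-- The fundamental identity `Σ e_w deg w = [F_{Nℓ} : βF_N] deg v` along `β`. -/
theorem fundamentalIdentityAlong_heckeBetaBar :
    haveI := hasPrincipalDivisors ι (N * ℓ)
    FundamentalIdentityAlong L (heckeBetaBar L N ℓ) (heckeBetaBarIntegral ι N ℓ) := by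
  haveI := hasPrincipalDivisors ι (N * ℓ)
  haveI : CharZero L := charZero_of_algebraRat
  exact FundIdentity.fundamentalIdentityAlong (heckeBetaBar L N ℓ) (heckeBetaBarIntegral ι N ℓ)
    (finiteAlong_heckeBetaBar ι N ℓ) (finite_residueField ι N)

include ι in
/-- The fundamental identity along `α`. -/
theorem fundamentalIdentityAlong_heckeAlphaBar :
    haveI := hasPrincipalDivisors ι (N * ℓ)
    FundamentalIdentityAlong L (heckeAlphaBar L N ℓ) (heckeAlphaBarIntegral ι N ℓ) := by
  haveI := hasPrincipalDivisors ι (N * ℓ)
  haveI : CharZero L := charZero_of_algebraRat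
  exact FundIdentity.fundamentalIdentityAlong (heckeAlphaBar L N ℓ) (heckeAlphaBarIntegral ι N ℓ)
    (finiteAlong_heckeAlphaBar ι N ℓ) (finite_residueField ι N)

include ι in
/-- **A1 over `L`, conditional on the norm formula along `α`** (A1b). -/
theorem heckeInputsAlong_of_normFormula
    (hNF : NormFormulaAlong L (heckeAlphaBar L N ℓ) (finiteAlong_heckeAlphaBar ι N ℓ)) :
    HeckeInputsAlong L N ℓ :=
  ⟨heckeAlphaBarIntegral ι N ℓ, heckeBetaBarIntegral ι N ℓ, hasPrincipalDivisors ι (N * ℓ),
    finiteAlong_heckeAlphaBar ι N ℓ, fundamentalIdentityAlong_heckeBetaBar ι N ℓ, hNF⟩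

end Fermat.Agent.N4F.A.LevelMapsL
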