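/-
N4-FULL, Block A, node A1-L (final, helper29): `ModularCurve.HeckeInputsAlong L N ℓ` is a THEOREM
for every coefficient field `L` with a ring homomorphism `ι : L →+* ℂ`, in particular for `L = ℂ`
(needed by block F: `heckeOperatorAlong ℂ N ℓ` is the honest correspondence `α_* β^*`).
Assembly of `LevelMapsL` (helper29) and the generic norm formula of `PlaceFiber` (helper2).
-/
import Fermat.Agent.N4F.A.LevelMapsL
import Fermat.Agent.N4F.A.PlaceFiber

set_option autoImplicit false
set_option linter.style.haveILetI false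
set_option linter.unusedSectionVars false

open AlgebraicCurve IntermediateField ModularCurve

namespace Fermat.Agent.N4F.A.HeckeInputsL

open Fermat.Agent.N4F.A.LevelMapsL

variable {L : Type*} [Field L] [Algebra ℚ L] (ι : L →+* ℂ) (N ℓ : ℕ) [NeZero N] [NeZero ℓ]

include ι in
/-- The norm formula along `α`. -/
theorem normFormulaAlong_heckeAlphaBar :
    NormFormulaAlong L (heckeAlphaBar L N ℓ) (finiteAlong_heckeAlphaBar ι N ℓ) := by
  haveI := hasPrincipalDivisors ι (N * ℓ)
  haveI : CharZero L := charZero_of_algebraRat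
  exact PlaceFiber.normFormulaAlong (heckeAlphaBar L N ℓ) (finiteAlong_heckeAlphaBar ι N ℓ)

include ι in
/-- The norm formula along `β`. -/
theorem normFormulaAlong_heckeBetaBar :
    NormFormulaAlong L (heckeBetaBar L N ℓ) (finiteAlong_heckeBetaBar ι N ℓ) := by
  haveI := hasPrincipalDivisors ι (N * ℓ)
  haveI : CharZero L := charZero_of_algebraRat
  exact PlaceFiber.normFormulaAlong (heckeBetaBar L N ℓ) (finiteAlong_heckeBetaBar ι N ℓ)

include ι in
/-- **A1 over `L`: `HeckeInputsAlong L N ℓ`**, unconditionally, for every `L` embedding in `ℂ`. -/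
theorem heckeInputsAlong : HeckeInputsAlong L N ℓ :=
  heckeInputsAlong_of_normFormula ι N ℓ (normFormulaAlong_heckeAlphaBar ι N ℓ)

/-- **A1 over `ℂ`.** -/
theorem heckeInputsAlong_complex : HeckeInputsAlong ℂ N ℓ :=
  heckeInputsAlong (RingHom.id ℂ) N ℓ

include ι in
/-- The Hecke correspondence `T_ℓ` over `L` is the honest one. -/
theorem heckeOperatorAlong_eq_heckePic0Bar :
    haveI := hasPrincipalDivisors ι (N * ℓ)
    heckeOperatorAlong L N ℓ =
      heckePic0Bar (heckeAlphaBarIntegral ι N ℓ) (heckeBetaBarIntegral ι N ℓ)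
        (fundamentalIdentityAlong_heckeBetaBar ι N ℓ) (finiteAlong_heckeAlphaBar ι N ℓ)
        (normFormulaAlong_heckeAlphaBar ι N ℓ) := by
  haveI := hasPrincipalDivisors ι (N * ℓ)
  exact heckeOperatorAlong_eq _ _ _ _ _

end Fermat.Agent.N4F.A.HeckeInputsL
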