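/-
N4-FULL, block A, node A1b (pure Mathlib half, helper29): the ideal generated by the norm of an
element of the integral closure `B` of a discrete valuation ring `A` is the power of the maximal
ideal with exponent `Σ_P f(P) · ord_P(b)`.
-/
import Mathlib

set_option autoImplicit false
set_option linter.style.haveILetI false
set_option linter.unusedSectionVars false

namespace Fermat.Agent.N4F.A.RelNormOrd

open Ideal UniqueFactorizationMonoid IsLocalRing

variable {A B : Type*} [CommRing A] [IsDomain A] [IsDiscreteValuationRing A]
  [CommRing B] [IsDedekindDomain B] [Algebra A B] [Module.Finite A B] [Module.IsTorsionFree A B]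
  [PerfectField (FractionRing A)]

/-- Every nonzero prime of `B` lies over the maximal ideal of the local ring `A`. -/
theorem liesOver_maximalIdeal (P : Ideal B) [hP : P.IsPrime] (hP0 : P ≠ ⊥) :
    P.LiesOver (maximalIdeal A) := by
  haveI : Algebra.IsIntegral A B := Algebra.IsIntegral.of_finite A B
  have h0 : P.under A ≠ ⊥ := mt Ideal.eq_bot_of_comap_eq_bot hP0
  haveI : (P.under A).IsPrime := Ideal.comap_isPrime _ _
  have hmax : (P.under A).IsMaximal := Ideal.IsPrime.isMaximal inferInstance h0
  exact ⟨(IsLocalRing.eq_maximalIdeal hmax).symm⟩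

/-- The relative norm of a nonzero prime of `B`. -/
theorem relNorm_prime (P : Ideal B) [hP : P.IsPrime] (hP0 : P ≠ ⊥) :
    relNorm A P = maximalIdeal A ^ P.inertiaDeg A := by
  haveI := liesOver_maximalIdeal (A := A) P hP0
  haveI : P.IsMaximal := hP.isMaximal hP0
  exact relNorm_eq_pow_of_isMaximal P (maximalIdeal A)

theorem relNorm_multiset_prod (s : Multiset (Ideal B)) (hs : ∀ P ∈ s, P.IsPrime ∧ P ≠ ⊥) :
    relNorm A s.prod = maximalIdeal A ^ (s.map fun P => P.inertiaDeg A).sum := by
  induction s using Multiset.induction_on with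
  | empty => simp
  | cons P s ih =>
    have hP := hs P (Multiset.mem_cons_self P s)
    haveI := hP.1
    rw [Multiset.prod_cons, map_mul, relNorm_prime P hP.2,
      ih (fun Q hQ => hs Q (Multiset.mem_cons_of_mem hQ)), Multiset.map_cons, Multiset.sum_cons,
      pow_add]

/-- **Norm and prime factorisation**: `(N_{B/A} b) = 𝔪_A ^ (Σ_{P | b} f(P))`, the sum over the
prime factors of `(b)` with multiplicity. -/
theorem span_intNorm_eq_pow {b : B} (hb : b ≠ 0) :
    Ideal.span {Algebra.intNorm A B b} =
      maximalIdeal A ^ ((normalizedFactors (Ideal.span {b})).map fun P => P.inertiaDeg A).sum := by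
  have hI : Ideal.span {b} ≠ ⊥ := by
    rw [Ne, Ideal.span_singleton_eq_bot]; exact hb
  rw [← relNorm_singleton, ← relNorm_multiset_prod]
  · rw [Ideal.prod_normalizedFactors_eq_self hI]
  · intro P hP
    have hprime : Prime P := prime_of_normalized_factor P hP
    exact ⟨Ideal.isPrime_of_prime hprime, hprime.ne_zero⟩

end Fermat.Agent.N4F.A.RelNormOrd
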